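import Fermat.Agent.RedTorsion.JLine
import Fermat.Agent.Igusa.SeriesOrder
import Fermat.Agent.FF.FixedRep
import Fermat.Prelude.Def_ModularCurve_X0ModL
import Fermat.Prelude.Def_AlgebraicCurve_BaseChangeGalois

/-!
# Classes fixed by semilinear automorphisms fixing a place

With a fixed place `O`, every class of degree zero is `E - r O` for exactly one effective `E` of
least degree `r`, which is bounded. So fixed classes have fixed representatives, and if an
automorphism fixes only finitely many places up to bounded periods it fixes finitely many classes.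
-/

set_option autoImplicit false

noncomputable section

namespace Fermat.Agent.NewformLocal.Toric

open AlgebraicCurve ModularCurve

section Generic

variable {K F : Type*} [Field K] [IsAlgClosed K] [Field F] [Algebra K F] [FF.IsFunctionField K F]

/-- A semilinear automorphism fixing a transcendental `x` and having finitely many fixed scalars
fixes finitely many places. -/
theorem finite_fixed_places {x : F} (hx : Transcendental K x) (g : SemilinearAut K F)
    (hgx : g • x = x) (hfin : {a : K | SemilinearAut.baseAut g a = a}.Finite) :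
    {P : Place K F | g • P = P}.Finite := by
  classical
  refine ((FF.poles K x).support.finite_toSet.union
    (hfin.biUnion fun a _ => (FF.div K (x - algebraMap K F a)).support.finite_toSet)).subset ?_
  intro P hP
  rcases lt_or_ge (P.ord x) 0 with hneg | hnn
  · refine Or.inl ?_
    rw [Finset.mem_coe, Finsupp.mem_support_iff, FF.poles_apply]
    omega
  · refine Or.inr ?_
    obtain ⟨a, ha⟩ := RedTorsion.exists_sub_mem_ordGe_one P (FF.mem_ordGe_of_le P hnn)
    have hne : ∀ b : K, x - algebraMap K F b ≠ 0 := fun b h0 =>
      hx (sub_eq_zero.mp h0 ▸ isAlgebraic_algebraMap b)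
    have h1 : 1 ≤ P.ord (x - algebraMap K F a) := FF.le_ord_of_mem_ordGe P (hne a) ha
    simp only [Set.mem_iUnion, Finset.mem_coe, Finsupp.mem_support_iff, FF.div_apply,
      Set.mem_ofPred_eq]
    refine ⟨a, by_contra fun hfa => ?_, by omega⟩
    have h2 : 1 ≤ P.ord (x - algebraMap K F (SemilinearAut.baseAut g a)) := by
      have h := SemilinearAut.ord_smul g P (x - algebraMap K F a)
      rw [show g • P = P from hP, smul_sub, hgx, SemilinearAut.smul_algebraMap] at h
      rw [h]; exact h1
    have h3 := sub_mem (FF.mem_ordGe_of_le P h1) (FF.mem_ordGe_of_le P h2)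
    rw [sub_sub_sub_cancel_left, ← map_sub] at h3
    have h4 := FF.le_ord_of_mem_ordGe P
      ((_root_.map_ne_zero _).mpr (sub_ne_zero.mpr hfa)) h3
    rw [FF.ord_algebraMap] at h4
    omega

/-- A semilinear automorphism fixing a place and `x` all whose powers have finitely many fixed
scalars fixes a finite number of classes of degree zero. -/
theorem finite_fixed_classes {x : F} (hx : Transcendental K x) (O : Place K F)
    (g : SemilinearAut K F) (hgO : g • O = O) (hgx : g • x = x)
    (hfin : ∀ n : ℕ, 0 < n → {a : K | SemilinearAut.baseAut (g ^ n) a = a}.Finite) :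
    {z : Pic0 K F | g • z = z}.Finite := by
  classical
  obtain ⟨R, hR⟩ := FF.exists_fixed_effective O
  set k := R.factorial with hk
  have hgk : g ^ k • x = x := by
    induction k with
    | zero => rw [pow_zero, one_smul]
    | succ n ih => rw [pow_succ, mul_smul, hgx, ih]
  set T := (finite_fixed_places hx (g ^ k) hgk (hfin k R.factorial_pos)).toFinset with hT
  -- the effective divisors of bounded degree supported at periodic places
  let V : Set (Divisor K F) := {E | 0 ≤ E ∧ E.support ⊆ T ∧ ∀ P, E P ≤ R}
  have hV : V.Finite := by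
    let φ : Divisor K F → T → ℤ := fun E P => E P
    refine Set.Finite.of_finite_image (f := φ)
      ((Set.Finite.pi fun _ : T => Set.finite_Icc (0 : ℤ) R).subset ?_) ?_
    · rintro _ ⟨E, ⟨h0, -, hle⟩, rfl⟩ P -
      exact ⟨Finsupp.le_def.mp h0 _, hle _⟩
    · rintro E ⟨-, hs, -⟩ E' ⟨-, hs', -⟩ he
      refine Finsupp.ext fun P => ?_
      by_cases hP : P ∈ T
      · exact congrFun he ⟨P, hP⟩
      · rw [Finsupp.notMem_support_iff.mp fun h => hP (hs h),
          Finsupp.notMem_support_iff.mp fun h => hP (hs' h)]
  refine ((hV.prod (Set.finite_Iic R)).image fun w : Divisor K F × ℕ =>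
    if h : Divisor.degree (w.1 - Finsupp.single O (w.2 : ℤ)) = 0 then
      Pic0.mk ⟨_, Divisor.mem_degZero.mpr h⟩ else 0).subset ?_
  intro z hz
  obtain ⟨D, rfl⟩ := Pic0.mk_surjective z
  have hgD : g • (D : Divisor K F) - D ∈ Divisor.principal (K := K) (F := F) := by
    have h := hz
    rw [Set.mem_ofPred_eq, SemilinearAut.pic0_smul_mk, ← sub_eq_zero] at h
    exact (QuotientAddGroup.eq_zero_iff (SemilinearAut.degZeroSMulHom g D - D)).mp h
  obtain ⟨r, hr, E, hE0, hEdeg, hEp, hEfix⟩ := hR D (Divisor.mem_degZero.mp D.2)
  have hgE := hEfix g hgO hgD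
  have hdeg : ∑ P ∈ E.support, E P = r := by
    rw [← hEdeg, FF.degree_eq_sum E E.support subset_rfl]
    simp [FF.deg_eq_one]
  have hEle : ∀ P, E P ≤ R := fun P => by
    by_cases hP : P ∈ E.support
    · have := Finset.single_le_sum (fun Q _ => (Finsupp.le_def.mp hE0 Q)) hP
      rw [hdeg] at this
      omega
    · rw [Finsupp.notMem_support_iff.mp hP]; exact Int.natCast_nonneg R
  have hsupp : ∀ P ∈ E.support, g • P ∈ E.support := fun P hP => by
    rw [Finsupp.mem_support_iff, ← hgE, SemilinearAut.divisor_smul_apply_smul,
      ← Finsupp.mem_support_iff]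
    exact hP
  have hcard : E.support.card ≤ R := by
    have : (E.support.card : ℤ) ≤ ∑ P ∈ E.support, E P := by
      rw [Finset.card_eq_sum_ones, Nat.cast_sum]
      refine Finset.sum_le_sum fun P hP => ?_
      have := Finsupp.mem_support_iff.mp hP
      have := Finsupp.le_def.mp hE0 P
      simp only [Finsupp.coe_zero, Pi.zero_apply] at this
      omega
    omega
  refine ⟨(E, r), ⟨⟨hE0, fun P hP => ?_, hEle⟩, hr⟩, ?_⟩
  · rw [hT, Set.Finite.mem_toFinset]
    show g ^ k • P = P
    -- the orbit of `P` lies in the support
    let σ : E.support → E.support := fun Q => ⟨g • Q.1, hsupp Q.1 Q.2⟩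
    have hσ : Function.Injective σ := fun a b h =>
      Subtype.ext (MulAction.injective g (congrArg Subtype.val h))
    have hper : Function.minimalPeriod σ ⟨P, hP⟩ ∣ k := by
      refine Nat.dvd_factorial (Function.minimalPeriod_pos_of_mem_periodicPts
        (hσ.mem_periodicPts ⟨P, hP⟩)) ?_
      refine le_trans ?_ hcard
      have h := (Function.periodicOrbit σ (⟨P, hP⟩ : E.support))
      have h' := Finset.card_le_univ ((Finset.range (Function.minimalPeriod σ ⟨P, hP⟩)).image
        fun i => σ^[i] ⟨P, hP⟩)
      rw [Finset.card_image_of_injOn (fun i hi j hj he =>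
        Function.iterate_injOn_Iio_minimalPeriod (f := σ) (x := (⟨P, hP⟩ : E.support))
          (by simpa using hi) (by simpa using hj) he), Finset.card_range,
        Fintype.card_coe] at h'
      exact h'
    obtain ⟨d, hd⟩ := hper
    have h := (Function.isPeriodicPt_minimalPeriod σ ⟨P, hP⟩).mul_const d
    rw [← hd] at h
    have hiter : ∀ n, ((σ^[n] ⟨P, hP⟩ : E.support) : Place K F) = g ^ n • P := by
      intro n
      induction n with
      | zero => rw [pow_zero, one_smul]; rfl
      | succ n ih => rw [Function.iterate_succ_apply', pow_succ', mul_smul, ← ih]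
    rw [← hiter, h.eq]
  · have hdeg0 : Divisor.degree (E - Finsupp.single O (r : ℤ)) = 0 := by
      rw [map_sub, hEdeg, Divisor.degree_single, FF.deg_eq_one]; simp
    simp only [dif_pos hdeg0]
    have h3 : Pic0.mk (⟨_, Divisor.mem_degZero.mpr hdeg0⟩ - D :
        Divisor.degZero (K := K) (F := F)) = 0 :=
      (QuotientAddGroup.eq_zero_iff _).mpr (AddSubgroup.mem_addSubgroupOf.mpr hEp)
    exact sub_eq_zero.mp h3

/-- The classes fixed by such an automorphism are killed by a positive integer. -/
theorem exists_smul_eq_zero_of_fixed {x : F} (hx : Transcendental K x) (O : Place K F)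
    (g : SemilinearAut K F) (hgO : g • O = O) (hgx : g • x = x)
    (hfin : ∀ n : ℕ, 0 < n → {a : K | SemilinearAut.baseAut (g ^ n) a = a}.Finite) :
    ∃ e : ℕ, 0 < e ∧ ∀ z : Pic0 K F, g • z = z → e • z = 0 := by
  let H : AddSubgroup (Pic0 K F) :=
    { carrier := {z | g • z = z}
      zero_mem' := smul_zero (A := Pic0 K F) g
      add_mem' := fun {a b} (ha : g • a = a) (hb : g • b = b) => by
        show g • (a + b) = a + b
        rw [smul_add, ha, hb]
      neg_mem' := fun {a} (ha : g • a = a) => by
        show g • (-a) = -a
        rw [smul_neg, ha] }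
  have : Finite H := (finite_fixed_classes hx O g hgO hgx hfin).to_subtype
  refine ⟨Nat.card H, Nat.card_pos, fun z hz => ?_⟩
  exact congrArg Subtype.val (card_nsmul_eq_zero' (x := (⟨z, hz⟩ : H)))

end Generic

/-! ### The cusp at infinity of a field of series -/

section Series

variable {K : Type*} [Field K] {F : IntermediateField K (LaurentSeries K)}
  (hj : jqModC K ∈ F)

/-- Shortcut: the search through `LaurentSeries` is slow. -/
local instance instAlgebraFixedField : Algebra K F := inferInstance

theorem one_lt_valInf_jq :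
    1 < ModFun.valInf K (F.val ⟨jqModC K, hj⟩) := by
  have hj0 : jqModC K ≠ 0 := fun h0 => by simpa [h0] using Igusa.order_jqModC (K := K)
  show 1 < ModFun.valInf K (jqModC K)
  rw [ModFun.valInf_apply hj0, Igusa.order_jqModC, ← WithZero.exp_zero, WithZero.exp_lt_exp]
  norm_num

variable [FF.IsFunctionField K F]

/-- The cusp at infinity. -/
def infPlace : Place K F :=
  ModFun.placeOfEmb (ModFun.valInf K) (fun _ hc => ModFun.valInf_constant hc)
    F.val (one_lt_valInf_jq hj)

theorem mem_infPlace {x : F} :
    x ∈ (infPlace hj).toValuationSubring ↔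
      (x : LaurentSeries K) = 0 ∨ 0 ≤ (x : LaurentSeries K).order := by
  refine (ModFun.mem_placeOfEmb _ _ _ _ x).trans ?_
  show ModFun.valInf K (x : LaurentSeries K) ≤ 1 ↔ _
  rcases eq_or_ne (x : LaurentSeries K) 0 with h | h
  · simp [h]
  · rw [ModFun.valInf_apply h, ← WithZero.exp_zero, WithZero.exp_le_exp]
    simp [h]

/-- A semilinear automorphism acting on the coefficients fixes the cusp at infinity. -/
theorem smul_infPlace (g : SemilinearAut K F) (φ : K →+* K)
    (hg : ∀ x : F, ((g • x : F) : LaurentSeries K) = coeffMap φ (x : LaurentSeries K)) :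
    g • infPlace hj = infPlace hj := by
  refine Place.ext (SetLike.ext fun x => ?_)
  rw [SemilinearAut.smul_toValuationSubring,
    ValuationSubring.mem_pointwise_smul_iff_inv_smul_mem, mem_infPlace, mem_infPlace]
  set y := g⁻¹ • x with hy
  have e : (x : LaurentSeries K) = coeffMap φ (y : LaurentSeries K) := by
    rw [← hg, hy, smul_inv_smul]
  rw [e]
  rcases eq_or_ne (y : LaurentSeries K) 0 with h | h
  · simp [h]
  · rw [Igusa.order_coeffMap, map_eq_zero_iff _ (coeffMap φ).injective]

end Series

end Fermat.Agent.NewformLocal.Toric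

end
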