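import Fermat.Agent.NewformLocal.Oldness
import Fermat.Agent.GaloisReps.JacobianModel
import Fermat.Agent.LevelRaising.Commute
import Fermat.Agent.LevelRaising.Main

/-!
# Hecke operators killing the old forms land in the kernel of the degeneracy operators

If an element of the Hecke algebra away from the level kills the forms coming from level `M`, its
image on the lattice of parabolic homomorphisms of level `M q`, conjugated by the Atkin-Lehner
involution, is killed by the two degeneracy operators, with coefficients in any ring.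
-/

set_option autoImplicit false

noncomputable section

open CongruenceSubgroup Function
open Matrix.SpecialLinearGroup (mapGL)
open P2MW.S_ModularForm_heckeT_slash_eq_self_of_mem_Gamma0.ModularForm.HeckeSlashInvariance
open ModularCurve ModularCurve.Period
open scoped MatrixGroups BigOperators

namespace Fermat.Agent.NewformLocal.Toric

open LevelRaising (intGL tMat RaiseData)
open Periods (homT systemT)
open GaloisReps (atkinHom atkinConj atkinGL coord)

section Commute

variable {N : ℕ} [NeZero N]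

/-- The integral matrix `W tMat W⁻¹`. -/
def conjTMat (N ℓ : ℕ) : Option (ZMod ℓ) → Matrix (Fin 2) (Fin 2) ℤ
  | none => !![1, 0; 0, (ℓ : ℤ)]
  | some x => !![(ℓ : ℤ), 0; -((N : ℤ) * (x.val : ℤ)), 1]

omit [NeZero N] in
theorem det_conjTMat (ℓ : ℕ) (i : Option (ZMod ℓ)) : (conjTMat N ℓ i).det = ℓ := by
  cases i <;> simp [conjTMat, Matrix.det_fin_two_of]

theorem atkinGL_mul_tMat {ℓ : ℕ} (hℓ : ℓ ≠ 0) (i : Option (ZMod ℓ)) :
    atkinGL N * intGL (tMat ℓ i) = intGL (conjTMat N ℓ i) * atkinGL N := by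
  apply Units.ext
  rw [Units.val_mul, Units.val_mul, LevelRaising.intGL_val (by simp [LevelRaising.det_tMat, hℓ]),
    LevelRaising.intGL_val (by simp [det_conjTMat, hℓ]), GaloisReps.coe_atkinGL]
  cases i <;> ext a b <;> fin_cases a <;> fin_cases b <;>
    simp [tMat, conjTMat, Matrix.mul_apply, Fin.sum_univ_two, mul_comm]

/-- `T_ℓ` commutes with the Atkin-Lehner conjugation. -/
theorem homT_atkinHom {ℓ : ℕ} (hℓ : ℓ.Prime) (hℓN : ¬ ℓ ∣ N) {A : Type} [AddCommGroup A]
    (R : Type*) [Semiring R] [Module R A] (φ : Additive (Gamma0 N) →+ A) :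
    homT hℓ hℓN R (atkinHom N A φ) = atkinHom N A (homT hℓ hℓN R φ) := by
  have : NeZero ℓ := ⟨hℓ.ne_zero⟩
  have h0 := hℓ.ne_zero
  refine AddMonoidHom.ext fun x => ?_
  obtain ⟨γ, rfl⟩ : ∃ γ, Additive.ofMul γ = x := ⟨x.toMul, rfl⟩
  set S := systemT hℓ hℓN with hS
  have hcov : ∀ i, ∃ (u : Gamma0 N) (j : Option (ZMod ℓ)),
      intGL (conjTMat N ℓ i) = mapGL ℝ (u : SL(2, ℤ)) * intGL (tMat ℓ j) := fun i =>
    LevelRaising.exists_tMat_coset hℓ hℓN (det_conjTMat ℓ i) (by cases i <;> simp [conjTMat])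
  choose u σ hu using hcov
  have hrep : ∀ i, S.rep i = intGL (tMat ℓ i) := fun i =>
    LevelRaising.heckeRep_eq_intGL h0 i
  have hW : ∀ i, atkinGL N * S.rep i = mapGL ℝ (u i : SL(2, ℤ)) * S.rep (σ i) * atkinGL N :=
    fun i => by rw [hrep, hrep, atkinGL_mul_tMat h0, hu]
  have hσ : Bijective σ := by
    refine Finite.injective_iff_bijective.mp fun i j hij => ?_
    refine S.unique i j (atkinConj N (u i * (u j)⁻¹)) (mul_left_cancel (a := atkinGL N) ?_)
    rw [← mul_assoc, GaloisReps.atkinGL_mul, GaloisReps.atkinConj_atkinConj, mul_assoc _ (atkinGL N),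
      hW, hW, hij, Subgroup.coe_mul, InvMemClass.coe_inv, map_mul, map_inv]
    simp only [mul_assoc, inv_mul_cancel_left]
  have hspec : ∀ k, intGL (conjTMat N ℓ k) * mapGL ℝ (atkinConj N γ : SL(2, ℤ)) =
      mapGL ℝ (atkinConj N (S.cocycle γ k) : SL(2, ℤ)) * intGL (conjTMat N ℓ (S.perm γ k)) := by
    intro k
    refine mul_right_cancel (b := atkinGL N) ?_
    rw [mul_assoc, ← GaloisReps.atkinGL_mul, ← mul_assoc, ← atkinGL_mul_tMat h0, ← hrep, mul_assoc,
      S.spec, ← mul_assoc, GaloisReps.atkinGL_mul, mul_assoc, hrep, atkinGL_mul_tMat h0,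
      ← mul_assoc]
  have key := LevelRaising.sum_transfer S (fun k => intGL (conjTMat N ℓ k)) (S.perm γ)
    (S.perm_bijective γ) (fun k => atkinConj N (S.cocycle γ k)) (atkinConj N γ) hspec σ u 1
    (by simp) (fun k => by rw [one_mul, hu, hrep]) φ
  rw [GaloisReps.atkinHom_apply]
  show S.apply (atkinHom N A φ) (Additive.ofMul γ) = S.apply φ (Additive.ofMul (atkinConj N γ))
  rw [Periods.HeckeSystem.apply_apply, Periods.HeckeSystem.apply_apply]
  simp only [GaloisReps.atkinHom_apply]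
  rw [key]
  exact hσ.sum_comp fun j => φ (Additive.ofMul (S.cocycle (atkinConj N γ) j))

/-- The conjugation as a linear map on complex homomorphisms. -/
def atkinLin (N : ℕ) [NeZero N] :
    (Additive (Gamma0 N) →+ ℂ) →ₗ[ℂ] (Additive (Gamma0 N) →+ ℂ) where
  toFun := atkinHom N ℂ
  map_add' := map_add _
  map_smul' _ _ := rfl

theorem atkinLin_isParabolic {φ : Additive (Gamma0 N) →+ ℂ} (hφ : IsParabolicHom (Gamma0 N) φ) :
    IsParabolicHom (Gamma0 N) (atkinLin N φ) :=
  Gamma0.isParabolicHom_iff_mem_ellParHoms.mpr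
    (GaloisReps.atkinHom_mem (Gamma0.isParabolicHom_iff_mem_ellParHoms.mp hφ))

end Commute

section Old

variable {R N : ℕ} [NeZero R] [NeZero N]

/-- Transfer of a Hecke operator along `K`. -/
theorem exists_transfer (hR : R ∣ N)
    (K : (Additive (Gamma0 N) →+ ℂ) →ₗ[ℂ] (Additive (Gamma0 R) →+ ℂ))
    (hK : ∀ (ℓ : ℕ) (hℓ : ℓ.Prime) (hℓN : ¬ ℓ ∣ N) (hℓR : ¬ ℓ ∣ R) φ,
      homT hℓ hℓR ℂ (K φ) = K (homT hℓ hℓN ℂ φ))
    {x : Module.End ℂ (CuspForm (Gamma0 N) 2)}
    (hx : x ∈ CuspForm.heckeAlgebra N 2 (levelPrimes N)) :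
    ∃ x' : Module.End ℂ (CuspForm (Gamma0 R) 2),
      (∀ f, x (Newforms.levelIncl hR f) = Newforms.levelIncl hR (x' f)) ∧
      ∀ g g' h h', K (periodHomPair N (g, g')) = periodHomPair R (h, h') →
        K (periodHomPair N (x g, x g')) = periodHomPair R (x' h, x' h') := by
  induction hx using Algebra.adjoin_induction with
  | mem y hy =>
    rcases hy with ⟨ℓ, hℓ, hℓN, hℓS, rfl⟩ | ⟨p, hpN, -, hpS, rfl⟩
    · have hℓR : ¬ ℓ ∣ R := fun h => hℓN (h.trans hR)
      refine ⟨CuspForm.heckeTLin 2 hℓ hℓR, fun f => ?_, fun g g' h h' he => ?_⟩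
      · rw [← Newforms.hOp_eq_heckeTLin hℓ, ← Newforms.hOp_eq_heckeTLin hℓ]
        exact Newforms.hOp_levelIncl hℓ hR ⟨fun h => absurd h hℓN, fun h => h.trans hR⟩ f
      · rw [← LevelRaising.homT_periodHomPair hℓ hℓN, ← hK ℓ hℓ hℓN hℓR, he,
          LevelRaising.homT_periodHomPair hℓ hℓR]
    · exact absurd hpN hpS
  | algebraMap r =>
    refine ⟨algebraMap ℤ _ r, fun f => ?_, fun g g' h h' he => ?_⟩
    · simp only [Module.algebraMap_end_apply, map_zsmul]
    · simp only [Module.algebraMap_end_apply, ← Prod.smul_mk, map_zsmul, he]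
  | add y z _ _ hy hz =>
    obtain ⟨a, ha, ha'⟩ := hy
    obtain ⟨b, hb, hb'⟩ := hz
    refine ⟨a + b, fun f => by simp only [LinearMap.add_apply, map_add, ha, hb],
      fun g g' h h' he => ?_⟩
    simp only [LinearMap.add_apply, ← Prod.mk_add_mk, map_add, ha' g g' h h' he,
      hb' g g' h h' he]
  | mul y z _ _ hy hz =>
    obtain ⟨a, ha, ha'⟩ := hy
    obtain ⟨b, hb, hb'⟩ := hz
    exact ⟨a * b, fun f => by simp only [Module.End.mul_apply, hb, ha],
      fun g g' h h' he => ha' _ _ _ _ (hb' g g' h h' he)⟩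

/-- An operator to level `R` commuting with the good `T_ℓ` kills what is moved by a Hecke operator
killing the forms of level `R`. -/
theorem map_periodHomPair_eq_zero (hR : R ∣ N)
    (K : (Additive (Gamma0 N) →+ ℂ) →ₗ[ℂ] (Additive (Gamma0 R) →+ ℂ))
    (hKpar : ∀ φ, IsParabolicHom (Gamma0 N) φ → IsParabolicHom (Gamma0 R) (K φ))
    (hK : ∀ (ℓ : ℕ) (hℓ : ℓ.Prime) (hℓN : ¬ ℓ ∣ N) (hℓR : ¬ ℓ ∣ R) φ,
      homT hℓ hℓR ℂ (K φ) = K (homT hℓ hℓN ℂ φ))
    (t : CuspForm.heckeAlgebra N 2 (levelPrimes N))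
    (ht : ∀ f : CuspForm (Gamma0 R) 2, t.1 (Newforms.levelIncl hR f) = 0)
    (g g' : CuspForm (Gamma0 N) 2) :
    K (periodHomPair N (t.1 g, t.1 g')) = 0 := by
  obtain ⟨x', hinc, hx'⟩ := exists_transfer hR K hK t.2
  have hinj : Function.Injective (Newforms.levelIncl (k := 2) hR) :=
    Newforms.levelRaise_injective (M := R) (d := 1) (by rwa [one_mul])
  have h0 : ∀ f, x' f = 0 := fun f => hinj (by rw [← hinc, map_zero]; exact ht f)
  obtain ⟨h, h', he⟩ := LevelRaising.exists_periodHomPair (M := R)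
    (hKpar _ (GaloisReps.periodHomPair_mem (g, g') |> Gamma0.isParabolicHom_iff_mem_ellParHoms.mpr))
  rw [hx' g g' h h' he.symm, h0, h0]
  exact map_zero (periodHomPair R)

end Old

section Degeneracy

variable {q M : ℕ} [NeZero M] [NeZero (M * q)] (h : RaiseData q M)
include h

theorem cor_atkin_periodHomPair_eq_zero
    (t : CuspForm.heckeAlgebra (M * q) 2 (levelPrimes (M * q)))
    (ht : ∀ f : CuspForm (Gamma0 M) 2, t.1 (Newforms.levelIncl (dvd_mul_right M q) f) = 0)
    (g g' : CuspForm (Gamma0 (M * q)) 2) :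
    h.corSys.apply (atkinHom _ ℂ (periodHomPair (M * q) (t.1 g, t.1 g'))) = 0 :=
  map_periodHomPair_eq_zero (dvd_mul_right M q) (h.corSys.op ℂ ∘ₗ atkinLin (M * q))
    (fun φ hφ => h.corSys.apply_isParabolicHom (atkinLin_isParabolic hφ))
    (fun ℓ hℓ hℓN hℓR φ => by
      show homT hℓ hℓR ℂ (h.corSys.apply _) = h.corSys.apply (atkinHom _ ℂ (homT hℓ hℓN ℂ φ))
      rw [h.homT_cor (by norm_num) (by simp) hℓ hℓR hℓN, ← homT_atkinHom hℓ hℓN ℂ]
      rfl)
    t ht g g'

theorem star_atkin_periodHomPair_eq_zero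
    (t : CuspForm.heckeAlgebra (M * q) 2 (levelPrimes (M * q)))
    (ht : ∀ f : CuspForm (Gamma0 M) 2, t.1 (Newforms.levelIncl (dvd_mul_right M q) f) = 0)
    (g g' : CuspForm (Gamma0 (M * q)) 2) :
    h.starSys.apply (atkinHom _ ℂ (periodHomPair (M * q) (t.1 g, t.1 g'))) = 0 :=
  map_periodHomPair_eq_zero (dvd_mul_right M q) (h.starSys.op ℂ ∘ₗ atkinLin (M * q))
    (fun φ hφ => h.starSys.apply_isParabolicHom (atkinLin_isParabolic hφ))
    (fun ℓ hℓ hℓN hℓR φ => by
      show homT hℓ hℓR ℂ (h.starSys.apply _) = h.starSys.apply (atkinHom _ ℂ (homT hℓ hℓN ℂ φ))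
      rw [h.homT_star (by norm_num) (by simp) hℓ hℓR hℓN, ← homT_atkinHom hℓ hℓN ℂ]
      rfl)
    t ht g g'

/-- Images of such an operator on the lattice are killed by both degeneracy operators, with
coefficients in any ring. -/
theorem degeneracy_eq_zero (t : CuspForm.heckeAlgebra (M * q) 2 (levelPrimes (M * q)))
    (ht : ∀ f : CuspForm (Gamma0 M) 2, t.1 (Newforms.levelIncl (dvd_mul_right M q) f) = 0)
    {B : Type} [CommRing B] {φ : Additive (Gamma0 (M * q)) →+ B}
    (hφ : φ ∈ Gamma0.ellParHoms (Gamma0 (M * q)) B) (c : Fin (2 * Gamma0.genus (M * q)) → B)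
    (hc : coord (M * q) B φ =
      ((GaloisReps.latticeMat _ (GaloisReps.toFull _ t)).map (Int.castRingHom B)).mulVec c) :
    h.corSys.apply (atkinHom _ B φ) = 0 ∧ h.starSys.apply (atkinHom _ B φ) = 0 := by
  classical
  set L := GaloisReps.latticeMat _ (GaloisReps.toFull _ t) with hL
  set ψ : Fin (2 * Gamma0.genus (M * q)) → (Additive (Gamma0 (M * q)) →+ ℤ) :=
    fun j => ∑ i, L i j • GaloisReps.dualHom (M * q) i with hψ
  have hψmem : ∀ j, ψ j ∈ Gamma0.ellParHoms (Gamma0 (M * q)) ℤ := fun j =>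
    sum_mem fun i _ => zsmul_mem (GaloisReps.dualHom_mem i) _
  have hψc : ∀ j i, coord (M * q) ℤ (ψ j) i = L i j := fun j i => by
    simp only [hψ, map_sum, map_zsmul, GaloisReps.coord_dualHom, Finset.sum_apply, Pi.smul_apply,
      Pi.single_apply, smul_eq_mul, mul_ite, mul_one, mul_zero, Finset.sum_ite_eq, Finset.mem_univ,
      if_true]
  -- the integral homomorphisms are killed
  have hkill : ∀ j, h.corSys.apply (atkinHom _ ℤ (ψ j)) = 0 ∧
      h.starSys.apply (atkinHom _ ℤ (ψ j)) = 0 := by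
    intro j
    set γ : ℤ →+ ℂ := (Int.castRingHom ℂ).toAddMonoidHom
    obtain ⟨⟨g, g'⟩, hg⟩ := (GaloisReps.periodCoord (M * q)).surjective (Pi.single j 1)
    have e : γ.comp (ψ j) = periodHomPair (M * q) (t.1 g, t.1 g') := by
      refine GaloisReps.eq_of_coord (GaloisReps.comp_mem_ellParHoms _ (hψmem j))
        (GaloisReps.periodHomPair_mem _) (funext fun i => ?_)
      have h1 := congrFun (GaloisReps.complexMat_mulVec (GaloisReps.toFull _ t) g g') i
      rw [hg, ← GaloisReps.map_latticeMat, Matrix.mulVec_single_one, GaloisReps.periodCoord_apply]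
        at h1
      rw [GaloisReps.coord_apply, AddMonoidHom.comp_apply, ← GaloisReps.coord_apply (ψ j) i, hψc]
      exact h1
    constructor
    · refine AddMonoidHom.ext fun x => Int.cast_injective (α := ℂ) ?_
      have h1 := DFunLike.congr_fun (cor_atkin_periodHomPair_eq_zero h t ht g g') x
      rw [← e, GaloisReps.atkinHom_comp, Periods.HeckeSystem.apply_comp] at h1
      simpa [γ] using h1
    · refine AddMonoidHom.ext fun x => Int.cast_injective (α := ℂ) ?_
      have h1 := DFunLike.congr_fun (star_atkin_periodHomPair_eq_zero h t ht g g') x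
      rw [← e, GaloisReps.atkinHom_comp, Periods.HeckeSystem.apply_comp] at h1
      simpa [γ] using h1
  have eφ : φ = ∑ j, (zmultiplesHom B (c j)).comp (ψ j) := by
    refine GaloisReps.eq_of_coord hφ
      (sum_mem fun j _ => GaloisReps.comp_mem_ellParHoms _ (hψmem j)) ?_
    rw [hc]
    funext i
    rw [map_sum, Finset.sum_apply]
    simp only [Matrix.mulVec, dotProduct, Matrix.map_apply]
    refine Finset.sum_congr rfl fun j _ => ?_
    rw [GaloisReps.coord_apply _ i, AddMonoidHom.comp_apply, ← GaloisReps.coord_apply (ψ j) i, hψc,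
      zmultiplesHom_apply, zsmul_eq_mul]
    rfl
  constructor
  · rw [eφ, map_sum, ← Periods.HeckeSystem.op_apply (S := h.corSys) ℤ, map_sum]
    refine Finset.sum_eq_zero fun j _ => ?_
    rw [Periods.HeckeSystem.op_apply, GaloisReps.atkinHom_comp, Periods.HeckeSystem.apply_comp,
      (hkill j).1, AddMonoidHom.comp_zero]
  · rw [eφ, map_sum, ← Periods.HeckeSystem.op_apply (S := h.starSys) ℤ, map_sum]
    refine Finset.sum_eq_zero fun j _ => ?_
    rw [Periods.HeckeSystem.op_apply, GaloisReps.atkinHom_comp, Periods.HeckeSystem.apply_comp,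
      (hkill j).2, AddMonoidHom.comp_zero]

end Degeneracy

end Fermat.Agent.NewformLocal.Toric

end
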