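import Fermat.Agent.NewformLocal.Toric.NormPowers
import Fermat.Agent.RT.MazurP.Lift
import Fermat.Agent.RT.Mazur.FixedBasis
import Fermat.Agent.Semistable.Torsion

/-!
# The square of Frobenius on fixed classes whose norms vanish

A class of `J₀(q M)` fixed by inertia at `q` whose norms to level `M` vanish has a constant
multiple with a Kummer function of constant reductions, on which the square of Frobenius is `q²`.
-/

set_option autoImplicit false
set_option linter.unusedSectionVars false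

noncomputable section

namespace Fermat.Agent.NewformLocal.Toric

open ModularCurve AlgebraicCurve Fermat.Agent.Semistable
open Arith (QBar GQ)
open RT.MazurP (VUnit unramField)

/-- Shortcut: the search through `LaurentSeries` is slow. -/
local instance instAlgebraFBToricKummer (N : ℕ) :
    Algebra QBar (FB N) := inferInstance

section Fixed

variable {L : ℕ} [NeZero L]

theorem jqModC_mem_FB (L : ℕ) [NeZero L] : jqModC QBar ∈ FB L := by
  have h := (ModFun.jBase L QBar).2
  rwa [ModFun.coe_jBase] at h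

/-- A function whose divisor is divisible by `l`, with fixed class, is an `l`-th power times a fixed
function. -/
theorem exists_fixed_function {l : ℕ} (hl : 0 < l) {D : Divisor QBar (FB L)} {f : FB L} (hf : f ≠ 0)
    (hord : ∀ v, v.ord f = (l : ℤ) * D v) (H : Set GQ)
    (hclass : ∀ τ ∈ H, arithmeticGalois (L := QBar) (modularFunctionFieldFull L) τ • D - D ∈
      Divisor.principal (K := QBar) (F := FB L)) :
    ∃ h : FB L, h ≠ 0 ∧ ∀ τ ∈ H, galF L τ (f * h ^ l) = f * h ^ l := by
  classical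
  have hdeg : Divisor.degree D = 0 := by
    have h : (l : ℤ) • D = FF.div QBar f := Finsupp.ext fun v => by
      rw [Finsupp.smul_apply, smul_eq_mul, FF.div_apply, hord]
    have h2 := congrArg Divisor.degree h
    rw [map_zsmul, FF.degree_div, smul_eq_zero] at h2
    exact h2.resolve_left (by exact_mod_cast hl.ne')
  obtain ⟨R, hR⟩ := FF.exists_fixed_effective (infPlace (jqModC_mem_FB L))
  obtain ⟨r, -, E, -, -, ⟨g, hg, hgord⟩, hE⟩ := hR D hdeg
  set O := infPlace (jqModC_mem_FB L)
  have hO : ∀ τ : GQ, arithmeticGalois (L := QBar) (modularFunctionFieldFull L) τ • O = O := fun τ =>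
    smul_infPlace _ _ (τ : QBar →+* QBar) fun x => coe_arithmeticGalois_smul _ τ x
  set f₁ := f * g ^ l with hf₁
  have hf₁0 : f₁ ≠ 0 := mul_ne_zero hf (pow_ne_zero _ hg)
  have hord₁ : ∀ v, v.ord f₁ = (l : ℤ) * (E - Finsupp.single O (r : ℤ)) v := fun v => by
    have := hgord v
    simp only [Finsupp.sub_apply] at this ⊢
    rw [hf₁, v.ord_mul hf (pow_ne_zero _ hg), FF.ord_pow v, hord, ← this]
    ring
  let W : Submodule QBar (FB L) := Submodule.span QBar {f₁}
  have hW : ∀ τ ∈ H, ∀ x ∈ W, galF L τ x ∈ W := by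
    intro τ hτ x hx
    obtain ⟨a, rfl⟩ := Submodule.mem_span_singleton.mp hx
    set gτ := arithmeticGalois (L := QBar) (modularFunctionFieldFull L) τ with hgτ
    have hfix : gτ • (E - Finsupp.single O (r : ℤ)) = E - Finsupp.single O (r : ℤ) := by
      rw [smul_sub, SemilinearAut.smul_single, hO τ, hE gτ (hO τ) (hclass τ hτ)]
    have he : ∀ v : Place QBar (FB L), v.ord (galF L τ f₁) = v.ord f₁ := fun v => by
      have h := SemilinearAut.ord_smul gτ (gτ⁻¹ • v) f₁
      rw [smul_inv_smul] at h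
      rw [show galF L τ f₁ = gτ • f₁ from rfl, h, hord₁, hord₁]
      have h' := congrArg (fun X : Divisor QBar (FB L) => X v) hfix
      rw [SemilinearAut.divisor_smul_apply] at h'
      rw [h']
    obtain ⟨c, -, hc⟩ := exists_eq_const_mul ((_root_.map_ne_zero _).mpr hf₁0) hf₁0 he
    refine Submodule.mem_span_singleton.mpr ⟨τ a * c, ?_⟩
    rw [Algebra.smul_def, Algebra.smul_def, map_mul (galF L τ), hc, map_mul, mul_assoc]
    exact congrArg (· * _) (arithmeticRingAut_algebraMap _ τ a).symm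
  obtain ⟨b, hb, hbi, hbfix⟩ := RT.Mazur.exists_fixed_basis H W hW
  have hdim : 0 < Module.finrank QBar W := by
    rw [finrank_span_singleton hf₁0]; exact one_pos
  obtain ⟨c, hc⟩ := Submodule.mem_span_singleton.mp (hb ⟨0, hdim⟩)
  have hc0 : c ≠ 0 := fun h0 => hbi.ne_zero _ (by rw [← hc, h0, zero_smul])
  obtain ⟨u, hu⟩ := IsAlgClosed.exists_pow_nat_eq c hl
  refine ⟨algebraMap QBar (FB L) u * g, mul_ne_zero ((_root_.map_ne_zero _).mpr fun h0 =>
    hc0 (by rw [← hu, h0, zero_pow hl.ne'])) hg, fun τ hτ => ?_⟩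
  have e : f * (algebraMap QBar (FB L) u * g) ^ l = b ⟨0, hdim⟩ := by
    rw [← hc, mul_pow, ← map_pow, hu, Algebra.smul_def, hf₁]; ring
  rw [e]
  exact hbfix _ τ hτ

end Fixed

variable {A : ValuationSubring QBar} {q M : ℕ} [Fact q.Prime] [NeZero M] [CharP (Res A) q]
  [FF.IsFunctionField (Res A) (KM A M)]

theorem galD_principal (σ : GQ) {D : Divisor QBar (FB (q * M))}
    (hD : D ∈ Divisor.principal (K := QBar) (F := FB (q * M))) :
    galD σ D ∈ Divisor.principal (K := QBar) (F := FB (q * M)) :=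
  SemilinearAut.smul_mem_principal _ hD

theorem div_mem_principal {K F : Type*} [Field K] [IsAlgClosed K] [Field F] [Algebra K F]
    [FF.IsFunctionField K F] {f : F} (hf : f ≠ 0) :
    FF.div K f ∈ Divisor.principal (K := K) (F := F) := ⟨f, hf, fun v => (FF.div_apply f v).symm ▸ rfl⟩

/-- A power of a fixed function with both reductions `l`-th powers up to constants and congruent
orders along the components can be corrected by an `l`-th power to a Kummer function with constant
reductions. -/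
theorem exists_hasKummer_of_fb_pow (h : Setup A M q) (V : VUnit A h.hqM) (hV : V.Simple) {l : ℕ}
    {C : RT.MazurP.CoefField A q} (K : RT.MazurP.Kum h.hqM C l) (E : ℕ) (hδ : (l : ℤ) ∣ (E : ℤ) * K.δ)
    (hpow : ∀ s, ∃ (c : Res A) (k : KM A M), c ≠ 0 ∧ k ≠ 0 ∧
      K.fb s ^ E = algebraMap (Res A) (KM A M) c * k ^ l)
    {D : Divisor QBar (FB (q * M))} (hord : ∀ v, v.ord K.f = (l : ℤ) * D v) :
    ∃ (P : Divisor QBar (FB (q * M))) (a : Fin 2 → Res A),
      P ∈ Divisor.principal (K := QBar) (F := FB (q * M)) ∧ HasKummer h (E • D + P) l a := by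
  classical
  have := Arith.residueField_isAlgClosed A
  choose c hh hc0 hh0 hpow using hpow
  obtain ⟨δ₀, hδ₀⟩ := hδ
  obtain ⟨φ, hφ0, -, hφ⟩ := RT.MazurP.exists_fixed_pair (C := C) h.hA h.hM V hV
    (fun s => (hh s)⁻¹) (fun s => inv_ne_zero (hh0 s)) (-δ₀)
  set k := C.π ^ (-((E : ℤ) * K.v 0)) with hk
  have hk0 : k ≠ 0 := zpow_ne_zero _ C.π_ne_zero
  set f₁ := algebraMap QBar (FB (q * M)) k * (K.f ^ E * φ ^ l) with hf₁
  choose hb hbr using K.spec
  choose hφm hφr using hφ
  have e : ∀ s, iota2 M q h.hqM s f₁ =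
      (algebraMap QBar LSer (C.π ^ (-K.v s)) * iota2 M q h.hqM s K.f) ^ E *
        (algebraMap QBar LSer (C.π ^ (-(![0, -δ₀] s))) * iota2 M q h.hqM s φ) ^ l := by
    intro s
    have hexp : k = (C.π ^ (-K.v s)) ^ E * (C.π ^ (-(![0, -δ₀] s))) ^ l := by
      rw [hk, ← zpow_natCast (C.π ^ (-K.v s)), ← zpow_natCast (C.π ^ (-(![0, -δ₀] s))), ← zpow_mul,
        ← zpow_mul, ← zpow_add₀ C.π_ne_zero]
      congr 1
      rw [RT.MazurP.Kum.δ] at hδ₀
      fin_cases s
      · simp only [Fin.zero_eta, Matrix.cons_val_zero]; ring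
      · simp only [Fin.mk_one, Matrix.cons_val_one, Matrix.cons_val_fin_one]
        linear_combination hδ₀
    rw [hf₁, map_mul, map_mul, map_pow, map_pow, AlgHom.commutes, hexp, map_mul, map_pow, map_pow]
    ring
  have hmem : ∀ s, iota2 M q h.hqM s f₁ ∈ locS A := fun s => by
    rw [e s]
    exact mul_mem (pow_mem (hb s) _) (pow_mem (hφm s) _)
  refine ⟨FF.div QBar φ, c, div_mem_principal hφ0, hc0,
    ⟨f₁, (mem_loc2 _).mpr hmem⟩, fun v => ?_, fun s => ?_⟩
  · show v.ord f₁ = _
    rw [hf₁, v.ord_mul ((_root_.map_ne_zero _).mpr hk0)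
        (mul_ne_zero (pow_ne_zero _ K.f_ne) (pow_ne_zero _ hφ0)),
      v.ord_mul (pow_ne_zero _ K.f_ne) (pow_ne_zero _ hφ0), FF.ord_algebraMap, FF.ord_pow v,
      FF.ord_pow v, hord, Finsupp.add_apply, Finsupp.smul_apply, FF.div_apply, nsmul_eq_mul]
    ring
  · rw [red2_apply]
    refine (redL_congr _ (mul_mem (pow_mem (hb s) _) (pow_mem (hφm s) _)) (e s)).trans ?_
    rw [RT.MazurP.redL_mul' (pow_mem (hb s) _) (pow_mem (hφm s) _), RT.MazurP.redL_pow' (hb s),
      RT.MazurP.redL_pow' (hφm s), hbr, hφr]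
    have e2 : (K.fb s) ^ E * ((hh s)⁻¹) ^ l = algebraMap (Res A) (KM A M) (c s) := by
      rw [hpow s, mul_assoc, ← mul_pow, mul_inv_cancel₀ (hh0 s), one_pow, mul_one]
    exact congrArg Subtype.val e2

/-- A constant power of a fixed function whose norms are powers can be corrected by an `l`-th
power to a Kummer function with constant reductions. -/
theorem exists_hasKummer (h : Setup A M q) (V : VUnit A h.hqM) (hV : V.Simple) {eF : ℕ}
    (heF : 0 < eF) (hkill : ∀ z : Pic0 (Res A) (KM A M),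
      haveI := Arith.residueField_isAlgClosed A
      frobAut (K := Res A) M q • frobAut (K := Res A) M q • z = z → eF • z = 0)
    {l : ℕ} (hl : 0 < l) {f : FB (q * M)} (hf : f ≠ 0) {D : Divisor QBar (FB (q * M))}
    (hord : ∀ v, v.ord f = (l : ℤ) * D v)
    (hfix : ∀ τ ∈ A.inertiaSubgroupIn ℚ, galF (q * M) τ f = f)
    (h₀ : ∃ G : FB M, G ≠ 0 ∧ normUp q M f = G ^ l)
    (h₁ : ∃ G : FB M, G ≠ 0 ∧ normUp q M (wEquiv q M h.hqM f) = G ^ l) :
    ∃ (P : Divisor QBar (FB (q * M))) (a : Fin 2 → Res A),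
      P ∈ Divisor.principal (K := QBar) (F := FB (q * M)) ∧
        HasKummer h ((nodeCount A q M * eF) • D + P) l a := by
  classical
  have := Arith.residueField_isAlgClosed A
  set C := unramField (p := q) h.hA
  obtain ⟨K, hK⟩ := RT.MazurP.Kum.exists_of (hpM := h.hqM) (C := C) hl h.hA h.hM hf
    (fun v => ⟨D v, hord v⟩) hfix
  subst hK
  obtain ⟨hδ, -⟩ := nodeCount_congr h.hA h.hM V hV rfl K
  refine exists_hasKummer_of_fb_pow h V hV K _ ?_
    (exists_fb_pow_eq h.hA h.hM V hV rfl heF hkill K h₀ h₁) hord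
  push_cast
  rw [mul_right_comm]
  exact hδ.mul_right _

/-- **The square of Frobenius on classes fixed by inertia with vanishing norms**, at a level with
simple supersingular points. -/
theorem exists_smul_principal_of_simple (h : Setup A M q) (V : VUnit A h.hqM) (hV : V.Simple)
    {σ : GQ} (hσ : A.IsFrobeniusAt σ q) :
    ∃ e : ℕ, 0 < e ∧ ∀ (l : ℕ), 0 < l → ¬ q ∣ l → ∀ (f : FB (q * M)), f ≠ 0 →
      ∀ D : Divisor QBar (FB (q * M)), (∀ v, v.ord f = (l : ℤ) * D v) →
        (∀ τ ∈ A.inertiaSubgroupIn ℚ, galD τ D - D ∈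
          Divisor.principal (K := QBar) (F := FB (q * M))) →
        (∃ G : FB M, G ≠ 0 ∧ normUp q M f = G ^ l) →
        (∃ G : FB M, G ≠ 0 ∧ normUp q M (wEquiv q M h.hqM f) = G ^ l) →
        e • (galD σ (galD σ D) - (q ^ 2) • D) ∈
          Divisor.principal (K := QBar) (F := FB (q * M)) := by
  classical
  have := Arith.residueField_isAlgClosed A
  obtain ⟨eF, heF, hkill⟩ := exists_smul_frobAut_sq (K := Res A) (N := M) (q := q) h.hM
  refine ⟨nodeCount A q M * eF, Nat.mul_pos (nodeCount_pos h.hA h.hM V hV) heF,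
    fun l hl hlq f hf D hord hclass h₀ h₁ => ?_⟩
  set E := nodeCount A q M * eF
  obtain ⟨u, hu, hfix⟩ := exists_fixed_function hl hf hord _ hclass
  obtain ⟨G₀, hG₀, hN₀⟩ := h₀
  obtain ⟨G₁, hG₁, hN₁⟩ := h₁
  have hwu : wEquiv q M h.hqM u ≠ 0 := (_root_.map_ne_zero _).mpr hu
  obtain ⟨P, a, hP, hk⟩ := exists_hasKummer h V hV heF hkill hl
    (mul_ne_zero hf (pow_ne_zero _ hu)) (D := D + FF.div QBar u)
    (fun v => by
      rw [v.ord_mul hf (pow_ne_zero _ hu), FF.ord_pow v, hord, Finsupp.add_apply, FF.div_apply]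
      ring)
    hfix
    ⟨G₀ * normUp q M u, mul_ne_zero hG₀ (normUp_ne_zero' hu),
      by rw [map_mul, map_pow, hN₀, mul_pow]⟩
    ⟨G₁ * normUp q M (wEquiv q M h.hqM u), mul_ne_zero hG₁ (normUp_ne_zero' hwu),
      by rw [map_mul, map_pow, map_mul, map_pow, hN₁, mul_pow]⟩
  have hmain := Setup.frobenius_sq_principal (h := h) hσ hl.ne' hlq hk
  set P' := E • FF.div QBar u + P with hP'
  have hP'mem : P' ∈ Divisor.principal (K := QBar) (F := FB (q * M)) :=
    add_mem (nsmul_mem (div_mem_principal hu) E) hP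
  have hgal : galD σ (galD σ P') - (q ^ 2) • P' ∈ Divisor.principal (K := QBar) (F := FB (q * M)) :=
    sub_mem (galD_principal σ (galD_principal σ hP'mem)) (nsmul_mem hP'mem _)
  have hsub := sub_mem hmain hgal
  have e : galD σ (galD σ (E • (D + FF.div QBar u) + P)) - (q ^ 2) • (E • (D + FF.div QBar u) + P) -
      (galD σ (galD σ P') - (q ^ 2) • P') = E • (galD σ (galD σ D) - (q ^ 2) • D) := by
    rw [hP', smul_add E, add_assoc, galD, galD, galD, galD]
    simp only [smul_add, smul_comm _ E]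
    rw [smul_sub, smul_comm E (q ^ 2)]
    abel
  rwa [e] at hsub
where
  normUp_ne_zero' {x : FB (q * M)} (hx : x ≠ 0) : normUp q M x ≠ 0 :=
    ((isUnit_iff_ne_zero.mpr hx).map (normUp q M)).ne_zero

end Fermat.Agent.NewformLocal.Toric

end
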