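import Fermat.Agent.NewformLocal.Toric.FixedClass
import Fermat.Agent.RedTorsion.JLine
import Fermat.Agent.EichlerShimura.Equivariance
import Mathlib.FieldTheory.IsAlgClosed.Basic

/-!
# The Frobenius of the residual function field, and the finitely many classes fixed by its square
-/

set_option autoImplicit false

noncomputable section

namespace Fermat.Agent.NewformLocal.Toric

open AlgebraicCurve ModularCurve

variable (K : Type*) [Field K] (N : ℕ) [NeZero N]

variable (q : ℕ) [hq : Fact q.Prime] [CharP K q] [IsAlgClosed K]

/-- The Frobenius on the coefficients. -/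
def frobAut : SemilinearAut K (modularFunctionFieldFullC K N) :=
  EichlerShimura.coeffAut N (frobeniusEquiv K q)

theorem coe_frobAut_smul (x : modularFunctionFieldFullC K N) :
    ((frobAut (K := K) N q • x : modularFunctionFieldFullC K N) : LaurentSeries K) =
      coeffMap (frobenius K q) (x : LaurentSeries K) := rfl

theorem baseAut_frobAut_pow (n : ℕ) (a : K) :
    SemilinearAut.baseAut ((frobAut (K := K) N q : SemilinearAut K (modularFunctionFieldFullC K N)) ^ n) a =
      a ^ q ^ n := by
  induction n generalizing a with
  | zero => simp
  | succ n ih =>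
    rw [pow_succ, SemilinearAut.baseAut_mul]
    show SemilinearAut.baseAut (frobAut (K := K) N q ^ n) (frobenius K q a) = _
    rw [ih, frobenius_def, ← pow_mul, ← pow_succ']

/-- The classes fixed by the square of the Frobenius are killed by a positive integer. -/
theorem exists_smul_frobAut_sq (hN : (N : K) ≠ 0) :
    ∃ e : ℕ, 0 < e ∧ ∀ z : Pic0 K (modularFunctionFieldFullC K N),
      frobAut (K := K) N q • frobAut (K := K) N q • z = z → e • z = 0 := by
  have := RedTorsion.isFunctionField_full (K := K) (N := N)
    (F := modularFunctionFieldFullC K N) rfl hN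
  set g : SemilinearAut K (modularFunctionFieldFullC K N) := frobAut (K := K) N q * frobAut (K := K) N q with hg
  set x : modularFunctionFieldFullC K N := ⟨jqModC K, jqModC_mem_full K N⟩ with hxdef
  have hj : frobAut (K := K) N q • x = x := Subtype.ext (by
    rw [coe_frobAut_smul]; exact coeffMap_jqModC _)
  have hx : Transcendental K x := fun h => Igusa.transcendental_jqModC K
    ((isAlgebraic_algHom_iff (modularFunctionFieldFullC K N).val
      (modularFunctionFieldFullC K N).val.injective).mpr h)
  obtain ⟨e, he, hk⟩ := exists_smul_eq_zero_of_fixed hx (infPlace (jqModC_mem_full K N)) g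
    (smul_infPlace _ g ((frobenius K q).comp (frobenius K q)) fun y => by
      rw [hg, mul_smul, coe_frobAut_smul, coe_frobAut_smul]
      exact HahnSeries.ext (funext fun n => by simp [coeffMap_coeff]))
    (by rw [hg, mul_smul, hj, hj]) fun n hn => by
      have hpow : g ^ n = frobAut (K := K) N q ^ (2 * n) := by rw [hg, ← pow_two, ← pow_mul]
      classical
      have hne : (Polynomial.X ^ q ^ (2 * n) - Polynomial.X : Polynomial K) ≠ 0 :=
        FiniteField.X_pow_card_pow_sub_X_ne_zero K (by omega) hq.out.one_lt
      refine (Polynomial.X ^ q ^ (2 * n) - Polynomial.X : Polynomial K).roots.toFinset.finite_toSet.subset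
        fun a ha => ?_
      rw [Set.mem_ofPred_eq, hpow, baseAut_frobAut_pow] at ha
      simp [Polynomial.mem_roots hne, ha]
  exact ⟨e, he, fun z hz => hk z (by rw [hg, mul_smul]; exact hz)⟩

end Fermat.Agent.NewformLocal.Toric

end
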