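import Fermat.Agent.RT.MazurP.Res
import Fermat.Agent.NewformLocal.Toric.ResFrobenius
import Fermat.Agent.NewformLocal.Toric.NormRed
import Fermat.Agent.RT.MazurP.Level

/-!
# The reductions of a function whose norms are powers

If the norms of `f` and of `w f` to level `M` are `l`-th powers, the divisors `a₀`, `a₁` of the
two reductions of `f` satisfy `a₀ + F a₁ ≡ a₁ + F a₀ ≡ 0` modulo `l` times principal divisors,
`F` the Frobenius on the coefficients. With the congruences at the supersingular points this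
makes constant powers of the reductions `l`-th powers, up to constants.
-/

set_option autoImplicit false
set_option linter.unusedSectionVars false

noncomputable section

namespace Fermat.Agent.NewformLocal.Toric

open ModularCurve AlgebraicCurve Fermat.Agent.Semistable
open Arith (QBar)
open RT.MazurP (VUnit CoefField unramField isRed_mem_KM redL_mul' redL_pow')

/-- Functions with the same divisor differ by a constant. -/
theorem exists_eq_const_mul {K F : Type*} [Field K] [IsAlgClosed K] [Field F] [Algebra K F]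
    [FF.IsFunctionField K F] {x y : F} (hx : x ≠ 0) (hy : y ≠ 0)
    (h : ∀ v : Place K F, v.ord x = v.ord y) :
    ∃ c : K, c ≠ 0 ∧ x = algebraMap K F c * y := by
  obtain ⟨c, hc⟩ := FF.eq_algebraMap_of_ord_nonneg (K := K) (f := x / y) fun v => by
    rw [FF.ord_div v hx hy, h, sub_self]
  refine ⟨c, fun h0 => div_ne_zero hx hy (by rw [hc, h0, map_zero]), ?_⟩
  rw [← hc, div_mul_cancel₀ x hy]

variable {A : ValuationSubring QBar}

/-- Two scalings of a series with nonzero reductions differ by a unit. -/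
theorem exists_residue_mul {y : LSer} {k : QBar} (hy : y ∈ locS A) (hr : redL A ⟨y, hy⟩ ≠ 0)
    (hk : algebraMap QBar LSer k * y ∈ locS A) :
    ∃ c : Res A, redL A ⟨_, hk⟩ = algebraMap (Res A) _ c * redL A ⟨y, hy⟩ := by
  obtain ⟨hi, -⟩ := inv_mem_locS hy hr
  have h0 : y ≠ 0 := fun h0 => hr (by
    rw [show (⟨y, hy⟩ : locS A) = 0 from Subtype.ext h0, map_zero])
  have hkA : k ∈ A := mem_of_algebraMap_mem_locS (A := A) (by
    have := mul_mem hk hi
    rwa [mul_assoc, mul_inv_cancel₀ h0, mul_one] at this)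
  obtain ⟨h', he⟩ := redL_const_mul hkA hy
  exact ⟨_, he⟩

variable {q M : ℕ} [Fact q.Prime] [NeZero M] [CharP (Res A) q]
  [FF.IsFunctionField (Res A) (KM A M)]

/-- If the norm of `x` is an `l`-th power, the divisors of the reductions of `x` and `w x` satisfy
`a₀ + F a₁ = l div g`. -/
theorem norm_relation [IsAlgClosed (Res A)] (hA : A.LiesOverPrime q) (hM : (M : Res A) ≠ 0)
    (hqM : ¬ q ∣ M) {l : ℕ} {x : FB (q * M)} {a b : QBar} (_ha0 : a ≠ 0) (_hb0 : b ≠ 0)
    (ha : algebraMap QBar LSer a * (x : LSer) ∈ locS A)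
    (hb : algebraMap QBar LSer b * (wEquiv q M hqM x : LSer) ∈ locS A)
    {r₀ r₁ : KM A M} (hr₀ : r₀ ≠ 0) (hr₁ : r₁ ≠ 0)
    (hra : redL A ⟨_, ha⟩ = (r₀ : LaurentSeries (Res A)))
    (hrb : redL A ⟨_, hb⟩ = (r₁ : LaurentSeries (Res A)))
    {G : FB M} (hG : G ≠ 0) (hN : normUp q M x = G ^ l) :
    ∃ g : KM A M, g ≠ 0 ∧
      FF.div (Res A) r₀ + (frobAut (K := Res A) M q) • FF.div (Res A) r₁ =
        (l : ℤ) • FF.div (Res A) g := by
  have hq : q.Prime := Fact.out
  have hne : ∀ {r : KM A M}, r ≠ 0 → (r : LaurentSeries (Res A)) ≠ 0 := fun {r} hr h =>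
    hr (Subtype.ext h)
  obtain ⟨hn, hnr⟩ := redL_normUp hqM hA ha hb (by rw [hra]; exact hne hr₀)
    (by rw [hrb]; exact hne hr₁)
  rw [hra, hrb] at hnr
  -- the reduction of the root of the norm
  obtain ⟨c, hc0, hc, hcr⟩ := exists_scale hA hq (mem_fracS_of_mem G)
    (fun h => hG (Subtype.ext h))
  have e0 : iota2 M q hqM 0 (upF M q G) = (G : LSer) := by rw [iota2_zero, coe_upF]
  have hc' : algebraMap QBar LSer c * iota2 M q hqM 0 (upF M q G) ∈ locS A := by rwa [e0]
  set g : KM A M := ⟨redL A ⟨_, hc⟩, isRed_mem_KM q M hqM hA hM (x := upF M q G) (s := 0)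
    ⟨hcr, c, hc0, hc', redL_congr hc' hc (by rw [e0])⟩⟩ with hg
  have hg0 : g ≠ 0 := fun h => hcr (congrArg Subtype.val h)
  refine ⟨g, hg0, ?_⟩
  have hcl := pow_mem hc l
  have hclr : redL A ⟨_, hcl⟩ = ((g ^ l : KM A M) : LaurentSeries (Res A)) := by
    rw [redL_pow' hc]; rfl
  have e1 : algebraMap QBar LSer (a * b ^ q) * (normUp q M x : LSer) =
      algebraMap QBar LSer (a * b ^ q * (c ^ l)⁻¹) * (algebraMap QBar LSer c * (G : LSer)) ^ l := by
    have h1 : algebraMap QBar LSer (c ^ l) ≠ 0 :=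
      (_root_.map_ne_zero _).mpr (pow_ne_zero _ hc0)
    rw [hN, mul_pow, ← map_pow, ← mul_assoc, ← map_mul, mul_assoc _ (c ^ l)⁻¹,
      inv_mul_cancel₀ (pow_ne_zero _ hc0), mul_one]
    rfl
  have hk : algebraMap QBar LSer (a * b ^ q * (c ^ l)⁻¹) *
      (algebraMap QBar LSer c * (G : LSer)) ^ l ∈ locS A := e1 ▸ hn
  obtain ⟨κ, hκ⟩ := exists_residue_mul hcl
    (by rw [hclr]; exact hne (pow_ne_zero _ hg0)) hk
  rw [← redL_congr hn hk e1, hnr, hclr] at hκ
  have hrel : r₀ * (frobAut (K := Res A) M q • r₁) = algebraMap (Res A) (KM A M) κ * g ^ l :=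
    Subtype.ext hκ
  have hF : frobAut (K := Res A) M q • r₁ ≠ 0 := fun h =>
    hr₁ (MulAction.injective (frobAut (K := Res A) M q) (h.trans (smul_zero _).symm))
  have hκ0 : κ ≠ 0 := fun h => mul_ne_zero hr₀ hF (by rw [hrel, h, map_zero, zero_mul])
  rw [EichlerShimura.smul_div, ← FF.div_mul hr₀ hF, hrel]
  refine Finsupp.ext fun v => ?_
  rw [Finsupp.smul_apply, FF.div_apply, FF.div_apply,
    v.ord_mul ((_root_.map_ne_zero _).mpr hκ0) (pow_ne_zero _ hg0), FF.ord_algebraMap, zero_add,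
    FF.ord_pow v, smul_eq_mul]

/-- The number of supersingular points. -/
def nodeCount (A : ValuationSubring QBar) (q M : ℕ) [NeZero M] [NeZero (q * M)] : ℕ :=
  ((genusFF QBar (FB (q * M)) : ℤ) + 1 - 2 * genusFF (Res A) (KM A M)).toNat

variable {hqM : ¬ q ∣ M}

theorem nodeCount_pos (_hA : A.LiesOverPrime q) (hM : (M : Res A) ≠ 0) (V : VUnit A hqM)
    (hV : V.Simple) : 0 < nodeCount A q M := by
  have h := hV.genus
  rw [RT.MazurP.degree_oD hM V] at h
  have h1 : (1 : ℤ) ≤ dedekindPsi M := by exact_mod_cast dedekindPsi_pos M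
  have h2 : (2 : ℤ) ≤ q := by exact_mod_cast (Fact.out : q.Prime).two_le
  have : (0 : ℤ) < ((q : ℤ) - 1) * dedekindPsi M := mul_pos (by omega) (by omega)
  unfold nodeCount
  omega

variable {C : CoefField A q} {l : ℕ}

/-- The congruences add up over the supersingular points: the number of these points kills the
orders modulo `l`. -/
theorem nodeCount_congr (hA : A.LiesOverPrime q) (hM : (M : Res A) ≠ 0) (V : VUnit A hqM)
    (hV : V.Simple) (he1 : C.e = 1) (K : RT.MazurP.Kum hqM C l) :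
    (l : ℤ) ∣ (nodeCount A q M : ℤ) * K.δ ∧
      ∀ (s : Fin 2) (P : Place (Res A) (KM A M)), (l : ℤ) ∣ (nodeCount A q M : ℤ) * P.ord (K.fb s) := by
  classical
  have := Arith.residueField_isAlgClosed A
  obtain ⟨hoff, hon, -⟩ := K.res V hA hM hV
  simp only [he1, Nat.cast_one, one_mul] at hon
  set T := (K.S₀ V).filter fun P => V.oW P = 12
  have hg := hV.genus
  rw [K.degree_oD_eq V] at hg
  have hsum : ∑ P ∈ K.S₀ V, V.oW P = 12 * (T.card : ℤ) := by
    rw [← Finset.sum_filter_add_sum_filter_not (K.S₀ V) (fun P => V.oW P = 12),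
      Finset.sum_eq_zero (s := (K.S₀ V).filter fun P => ¬ V.oW P = 12) fun P hP =>
        (hV.val P).resolve_right (Finset.mem_filter.mp hP).2,
      Finset.sum_congr rfl fun P hP => (Finset.mem_filter.mp hP).2, Finset.sum_const, add_zero,
      nsmul_eq_mul, mul_comm]
  have hcount : (nodeCount A q M : ℤ) = T.card := by
    unfold nodeCount
    omega
  have hδ : (l : ℤ) ∣ (T.card : ℤ) * K.δ := by
    have h1 : (l : ℤ) ∣ ∑ P ∈ K.S₀ V, ((if V.oW P = 12 then K.δ else 0) - K.s₀ P) :=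
      Finset.dvd_sum fun P _ => by
        split_ifs with h
        · exact (hon P h).1
        · rw [zero_sub, dvd_neg]
          exact (hoff P ((hV.val P).resolve_right h)).1
    rw [Finset.sum_sub_distrib, (K.sum_s₀_eq V).1, sub_zero, ← Finset.sum_filter,
      Finset.sum_const, nsmul_eq_mul] at h1
    exact h1
  rw [hcount]
  refine ⟨hδ, fun s P => ?_⟩
  rcases hV.val P with h | h
  · fin_cases s
    · exact ((hoff P h).1).mul_left _
    · exact ((hoff P h).2).mul_left _
  · fin_cases s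
    · have h2 := dvd_sub hδ ((hon P h).1.mul_left (T.card : ℤ))
      rw [← mul_sub, sub_sub_cancel] at h2
      exact h2
    · have h2 := dvd_sub ((hon P h).2.mul_left (T.card : ℤ)) hδ
      rw [← mul_sub, add_sub_cancel_left] at h2
      exact h2

variable [IsAlgClosed (Res A)]

/-- Powers with a fixed exponent of the reductions of a function both whose norms are `l`-th
powers are constants times `l`-th powers. -/
theorem exists_fb_pow_eq (hA : A.LiesOverPrime q) (hM : (M : Res A) ≠ 0) (V : VUnit A hqM)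
    (hV : V.Simple) (he1 : C.e = 1) {eF : ℕ} (_heF : 0 < eF)
    (hkill : ∀ z : Pic0 (Res A) (KM A M),
      frobAut (K := Res A) M q • frobAut (K := Res A) M q • z = z → eF • z = 0)
    (K : RT.MazurP.Kum hqM C l)
    (h₀ : ∃ G : FB M, G ≠ 0 ∧ normUp q M K.f = G ^ l)
    (h₁ : ∃ G : FB M, G ≠ 0 ∧ normUp q M (wEquiv q M hqM K.f) = G ^ l) :
    ∀ s, ∃ (c : Res A) (h : KM A M), c ≠ 0 ∧ h ≠ 0 ∧
      K.fb s ^ (nodeCount A q M * eF) = algebraMap (Res A) (KM A M) c * h ^ l := by
  classical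
  set F := frobAut (K := Res A) M q with hF
  set n := nodeCount A q M with hn
  have hl : (l : ℤ) ≠ 0 := by exact_mod_cast K.l_pos.ne'
  obtain ⟨-, hdvd⟩ := nodeCount_congr hA hM V hV he1 K
  obtain ⟨hb₀, hbr₀⟩ := K.spec 0
  obtain ⟨hb₁, hbr₁⟩ := K.spec 1
  have hπ : ∀ i : ℤ, C.π ^ i ≠ 0 := fun i => zpow_ne_zero _ C.π_ne_zero
  obtain ⟨G₀, hG₀, hN₀⟩ := h₀
  obtain ⟨G₁, hG₁, hN₁⟩ := h₁
  obtain ⟨g₀, hg₀, hrel₀⟩ := norm_relation hA hM hqM (hπ _) (hπ _) hb₀ hb₁ (K.fb_ne 0) (K.fb_ne 1)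
    hbr₀ hbr₁ hG₀ hN₀
  have hb₀' : algebraMap QBar LSer (C.π ^ (-K.v 0)) *
      (wEquiv q M hqM (wEquiv q M hqM K.f) : LSer) ∈ locS A := by
    rw [wEquiv_wEquiv q M hqM]; exact hb₀
  obtain ⟨g₁, hg₁, hrel₁⟩ := norm_relation hA hM hqM (hπ _) (hπ _) hb₁ hb₀' (K.fb_ne 1) (K.fb_ne 0)
    hbr₁ ((redL_congr hb₀' hb₀ (by rw [wEquiv_wEquiv q M hqM]; rfl)).trans hbr₀) hG₁ hN₁
  -- the divided divisors
  let d : Fin 2 → Divisor (Res A) (KM A M) := fun s =>
    ((n : ℤ) • FF.div (Res A) (K.fb s)).mapRange (fun i : ℤ => i / (l : ℤ)) (Int.zero_ediv _)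
  have hd : ∀ s, (l : ℤ) • d s = (n : ℤ) • FF.div (Res A) (K.fb s) := fun s => Finsupp.ext fun P => by
    rw [Finsupp.smul_apply, Finsupp.mapRange_apply, Finsupp.smul_apply, FF.div_apply, smul_eq_mul,
      smul_eq_mul]
    exact Int.mul_ediv_cancel' (hdvd s P)
  have hdeg : ∀ s, Divisor.degree (d s) = 0 := fun s => by
    have h := congrArg Divisor.degree (hd s)
    rw [map_zsmul, map_zsmul, FF.degree_div, smul_zero, smul_eq_zero] at h
    exact h.resolve_left hl
  let D : Fin 2 → Divisor.degZero (K := Res A) (F := KM A M) := fun s =>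
    ⟨d s, Divisor.mem_degZero.mpr (hdeg s)⟩
  have hprin : ∀ s t (g : KM A M), g ≠ 0 →
      FF.div (Res A) (K.fb s) + F • FF.div (Res A) (K.fb t) = (l : ℤ) • FF.div (Res A) g →
      Pic0.mk (D s) + F • Pic0.mk (D t) = 0 := by
    intro s t g hg hrel
    have e : d s + F • d t = (n : ℤ) • FF.div (Res A) g := by
      refine smul_right_injective (Divisor (Res A) (KM A M)) hl ?_
      show (l : ℤ) • (d s + F • d t) = (l : ℤ) • ((n : ℤ) • FF.div (Res A) g)
      rw [smul_add, smul_comm (l : ℤ) F, hd, hd, ← smul_comm (n : ℤ) F, ← smul_add, hrel, smul_comm]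
    rw [SemilinearAut.pic0_smul_mk]
    refine (QuotientAddGroup.eq_zero_iff (D s + SemilinearAut.degZeroSMulHom F (D t))).mpr ?_
    rw [AddSubgroup.mem_addSubgroupOf, AddSubgroup.coe_add, SemilinearAut.coe_degZeroSMulHom]
    show d s + F • d t ∈ _
    rw [e]
    exact ⟨g ^ n, pow_ne_zero _ hg, fun v => by
      rw [Finsupp.smul_apply, FF.div_apply, smul_eq_mul, FF.ord_pow v]⟩
  have hz₀ := hprin 0 1 g₀ hg₀ hrel₀
  have hz₁ := hprin 1 0 g₁ hg₁ hrel₁
  have hfix : ∀ s t, Pic0.mk (D s) + F • Pic0.mk (D t) = 0 →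
      Pic0.mk (D t) + F • Pic0.mk (D s) = 0 → F • F • Pic0.mk (D s) = Pic0.mk (D s) := by
    intro s t h1 h2
    have h3 := congrArg (F • ·) h2
    simp only [smul_add] at h3
    exact (eq_neg_of_add_eq_zero_right h3).trans (eq_neg_of_add_eq_zero_left h1).symm
  have hkilld : ∀ s, eF • Pic0.mk (D s) = 0 := fun s => by
    fin_cases s
    · exact hkill _ (hfix 0 1 hz₀ hz₁)
    · exact hkill _ (hfix 1 0 hz₁ hz₀)
  intro s
  have hk : Pic0.mk (eF • D s) = 0 :=
    (map_nsmul (QuotientAddGroup.mk' _) eF (D s)).trans (hkilld s)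
  have hp := (QuotientAddGroup.eq_zero_iff (eF • D s)).mp hk
  rw [AddSubgroup.mem_addSubgroupOf, AddSubgroup.coe_nsmul] at hp
  obtain ⟨h, hh, hord⟩ := hp
  obtain ⟨c, hc, e⟩ := exists_eq_const_mul (K := Res A) (pow_ne_zero (n * eF) (K.fb_ne s))
    (pow_ne_zero l hh) fun P => by
      have h1 := congrArg (fun X : Divisor (Res A) (KM A M) => X P) (hd s)
      have h2 := hord P
      simp only [Finsupp.smul_apply, FF.div_apply, smul_eq_mul, nsmul_eq_mul] at h1 h2
      rw [FF.ord_pow P, FF.ord_pow P, ← h2]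
      show _ = (l : ℤ) * ((eF : ℤ) * d s P)
      push_cast
      linear_combination -(eF : ℤ) * h1
  exact ⟨c, h, hc, hh, e⟩

end Fermat.Agent.NewformLocal.Toric

end
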