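import Fermat.Agent.NewformLocal.Toric.Kummer
import Fermat.Agent.RT.MazurP.Units
import Fermat.Agent.RT.Mazur.OrdersBasic
import Fermat.Agent.Semistable.Atkin
import Fermat.Agent.FF.Along

/-!
# Passing to an auxiliary level

With `c = 4` (`q` odd) or `c = 9` (`q = 2`) the supersingular points at level `q c M` are simple;
functions of level `q M` pull back there compatibly with `w` and the norms, and the norm brings
the conclusion back, up to the degree.
-/

set_option autoImplicit false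
set_option linter.unusedSectionVars false

noncomputable section

namespace Fermat.Agent.NewformLocal.Toric

open ModularCurve AlgebraicCurve Fermat.Agent.Semistable
open Arith (QBar GQ)
open RT.MazurP (VUnit)

/-- Shortcut: the search through `LaurentSeries` is slow. -/
local instance instAlgebraFBToricRaise (N : ℕ) :
    Algebra QBar (FB N) := inferInstance

/-! ### Inclusions of levels -/

theorem fb_le_of_dvd {N N' : ℕ} [NeZero N] [NeZero N'] (h : N ∣ N') : FB N ≤ FB N' := by
  rw [fb_eq_adjoin N, IntermediateField.adjoin_le_iff]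
  rintro _ ⟨d, rfl⟩
  exact gen_mem N' ⟨d.1, d.2.trans h⟩

/-- The inclusion of a level in a multiple. -/
def inclF {N N' : ℕ} [NeZero N] [NeZero N'] (h : N ∣ N') : FB N →ₐ[QBar] FB N' :=
  IntermediateField.inclusion (fb_le_of_dvd h)

@[simp]
theorem coe_inclF {N N' : ℕ} [NeZero N] [NeZero N'] (h : N ∣ N') (x : FB N) :
    (inclF h x : LSer) = (x : LSer) :=
  IntermediateField.coe_inclusion (fb_le_of_dvd h) x

theorem galF_inclF {N N' : ℕ} [NeZero N] [NeZero N'] (h : N ∣ N') (σ : GQ) (x : FB N) :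
    galF N' σ (inclF h x) = inclF h (galF N σ x) :=
  Subtype.ext (by rw [coe_arithmeticRingAut, coe_inclF, coe_inclF, coe_arithmeticRingAut])

variable {q M M' : ℕ} [hq : Fact q.Prime] [NeZero M] [NeZero M']

/-- The inclusion commutes with `w`. -/
theorem wEquiv_inclF (hMM : M ∣ M') (hqM : ¬ q ∣ M) (hqM' : ¬ q ∣ M') (x : FB (q * M)) :
    wEquiv q M' hqM' (inclF (mul_dvd_mul_left q hMM) x) =
      inclF (mul_dvd_mul_left q hMM) (wEquiv q M hqM x) := by
  have h : ((wEquiv q M' hqM').toAlgHom.comp (inclF (mul_dvd_mul_left q hMM))).toRingHom =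
      ((inclF (mul_dvd_mul_left q hMM)).comp (wEquiv q M hqM).toAlgHom).toRingHom := by
    refine fb_ringHom_ext (fun a => ?_) fun d => ?_
    · show wEquiv q M' hqM' (inclF (mul_dvd_mul_left q hMM) (algebraMap QBar _ a)) =
        inclF (mul_dvd_mul_left q hMM) (wEquiv q M hqM (algebraMap QBar _ a))
      rw [AlgHom.commutes, AlgEquiv.commutes, AlgEquiv.commutes, AlgHom.commutes]
    · refine Subtype.ext ?_
      show (wEquiv q M' hqM' (inclF (mul_dvd_mul_left q hMM) (genF (q * M) d)) : LSer) =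
        (inclF (mul_dvd_mul_left q hMM) (wEquiv q M hqM (genF (q * M) d)) : LSer)
      rw [coe_inclF]
      obtain ⟨d, hd⟩ := d
      rcases dvs_cases q M hq.out hd with h1 | ⟨e, he, rfl⟩
      · have : NeZero d := ⟨fun h0 => NeZero.ne M (Nat.eq_zero_of_zero_dvd (h0 ▸ h1))⟩
        have e1 : inclF (mul_dvd_mul_left q hMM) (genF (q * M) ⟨d, hd⟩) =
            genF (q * M') ⟨d, dvd_mul_of_dvd_right (h1.trans hMM) q⟩ :=
          Subtype.ext (by rw [coe_inclF, coe_genF, coe_genF]; rfl)
        rw [e1, wEquiv_gen_of_dvd q M' hqM' (h1.trans hMM)]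
        exact (wEquiv_gen_of_dvd q M hqM h1).symm
      · have : NeZero e := ⟨fun h0 => NeZero.ne M (Nat.eq_zero_of_zero_dvd (h0 ▸ he))⟩
        have e1 : inclF (mul_dvd_mul_left q hMM) (genF (q * M) ⟨q * e, hd⟩) =
            genF (q * M') ⟨q * e, mul_dvd_mul_left q (he.trans hMM)⟩ :=
          Subtype.ext (by rw [coe_inclF, coe_genF, coe_genF]; rfl)
        rw [e1, wEquiv_gen_mul q M' hqM' (he.trans hMM)]
        exact (wEquiv_gen_mul q M hqM he).symm
  exact DFunLike.congr_fun h x

/-- The inclusion commutes with the norm. -/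
theorem normUp_inclF (hMM : M ∣ M') (hqM : ¬ q ∣ M) (hqM' : ¬ q ∣ M') (x : FB (q * M)) :
    normUp q M' (inclF (mul_dvd_mul_left q hMM) x) = inclF hMM (normUp q M x) := by
  obtain ⟨ζ₀, hζ₀⟩ := HasEnoughRootsOfUnity.exists_primitiveRoot QBar q
  have hζ : IsPrimitiveRoot (hζ₀.isUnit hq.out.ne_zero).unit q :=
    IsPrimitiveRoot.coe_units_iff.mp (by simpa using hζ₀)
  refine Subtype.ext (qExpand_injective q ?_)
  rw [qExpand_normUp q M' hqM' hζ, coe_inclF, coe_inclF, qExpand_normUp q M hqM hζ,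
    wEquiv_inclF hMM hqM hqM', coe_inclF]

/-! ### The auxiliary level -/

/-- The factor making the supersingular points simple. -/
def auxFactor (q : ℕ) : ℕ := if q = 2 then 9 else 4

theorem auxFactor_cases (q : ℕ) : auxFactor q = 4 ∨ auxFactor q = 9 := by
  unfold auxFactor
  split_ifs <;> simp

theorem not_dvd_auxFactor_mul (hqM : ¬ q ∣ M) : ¬ q ∣ auxFactor q * M := fun h => by
  refine (hq.out.dvd_mul.mp h).elim (fun h1 => ?_) hqM
  unfold auxFactor at h1
  split_ifs at h1 with h2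
  · subst h2; norm_num at h1
  · have h3 : q ∣ 2 ^ 2 := by norm_num; exact h1
    exact h2 ((Nat.prime_dvd_prime_iff_eq hq.out Nat.prime_two).mp (hq.out.dvd_of_dvd_pow h3))

theorem genus_identity_of_dvd {c : ℕ} (hc : c = 4 ∨ c = 9) (hqM : ¬ q ∣ M) (h : c ∣ M) :
    12 * ((genusFF QBar (FB (q * M)) : ℤ) + 1 - 2 * genusFF QBar (FB M)) =
      ((q : ℤ) - 1) * dedekindPsi M :=
  RT.Mazur.genus_identity_of_nu hqM (RedTorsion.no_root_sq_add_one hc h)
    (RedTorsion.no_root_sq_add_one hc (h.trans (dvd_mul_left M q)))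

/-! ### The main statement -/

variable {A : ValuationSubring QBar}

theorem normUp_inclF_eq_pow (hMM : M ∣ M') (hqM : ¬ q ∣ M) (hqM' : ¬ q ∣ M') {l : ℕ}
    {x : FB (q * M)} (h : ∃ G : FB M, G ≠ 0 ∧ normUp q M x = G ^ l) :
    ∃ G : FB M', G ≠ 0 ∧ normUp q M' (inclF (mul_dvd_mul_left q hMM) x) = G ^ l := by
  obtain ⟨G, hG, e⟩ := h
  exact ⟨inclF hMM G, (_root_.map_ne_zero _).mpr hG, by rw [normUp_inclF hMM hqM hqM', e, map_pow]⟩

/-- **The square of Frobenius on classes fixed by inertia with vanishing norms.** -/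
theorem exists_smul_principal (hA : A.LiesOverPrime q) (hqM : ¬ q ∣ M) {σ : GQ}
    (hσ : A.IsFrobeniusAt σ q) :
    ∃ e : ℕ, 0 < e ∧ ∀ (l : ℕ), 0 < l → ¬ q ∣ l → ∀ (f : FB (q * M)), f ≠ 0 →
      ∀ D : Divisor QBar (FB (q * M)), (∀ v, v.ord f = (l : ℤ) * D v) →
        (∀ τ ∈ A.inertiaSubgroupIn ℚ, galD τ D - D ∈
          Divisor.principal (K := QBar) (F := FB (q * M))) →
        (∃ G : FB M, G ≠ 0 ∧ normUp q M f = G ^ l) →
        (∃ G : FB M, G ≠ 0 ∧ normUp q M (wEquiv q M hqM f) = G ^ l) →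
        e • (galD σ (galD σ D) - (q ^ 2) • D) ∈
          Divisor.principal (K := QBar) (F := FB (q * M)) := by
  classical
  obtain ⟨M', hM'⟩ : ∃ M', M' = auxFactor q * M := ⟨_, rfl⟩
  have : NeZero M' := ⟨by
    rw [hM']
    exact mul_ne_zero (by rcases auxFactor_cases q with h | h <;> rw [h] <;> norm_num) (NeZero.ne M)⟩
  have hMM : M ∣ M' := hM' ▸ dvd_mul_left M _
  have hqM' : ¬ q ∣ M' := hM' ▸ not_dvd_auxFactor_mul hqM
  have : CharP (Res A) q := Arith.residueField_charP hA hq.out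
  have := Arith.residueField_isAlgClosed A
  have : FF.IsFunctionField (Res A) (KM A M') :=
    isFunctionField_KM A (natCast_res_ne_zero hA hq.out hqM')
  have h := setup (M := M') hA hq.out hqM'
  obtain ⟨V⟩ := RT.MazurP.exists_vUnit (p := q) (M := M') hA h.hM hqM'
  have hV : V.Simple := V.simple_of_goodM hA h.hM h.good
    (genus_identity_of_dvd (auxFactor_cases q) hqM' (hM' ▸ dvd_mul_right _ _))
  obtain ⟨e, he, hmain⟩ := exists_smul_principal_of_simple h V hV hσ
  set ι := inclF (N := q * M) (N' := q * M') (mul_dvd_mul_left q hMM) with hι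
  have hint := FF.isIntegralAlong ι
  set d := finrankAlong QBar ι with hd
  refine ⟨e * d, Nat.mul_pos he (FF.finrankAlong_pos ι), fun l hl hlq f hf D hord hclass h₀ h₁ => ?_⟩
  set D' := Divisor.pullbackAlong ι hint D with hD'
  have hordι : ∀ (x : FB (q * M)) (X : Divisor QBar (FB (q * M))) (n : ℤ),
      (∀ v, v.ord x = n * X v) → ∀ w, w.ord (ι x) = n * Divisor.pullbackAlong ι hint X w :=
    fun x X n hx w => by
      rw [Place.ord_restrictAlong ι hint, hx, Divisor.pullbackAlong_apply]; ring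
  have hclass' : ∀ τ ∈ A.inertiaSubgroupIn ℚ, galD τ D' - D' ∈
      Divisor.principal (K := QBar) (F := FB (q * M')) := by
    intro τ hτ
    obtain ⟨g, hg, hgord⟩ := hclass τ hτ
    refine ⟨ι g, (_root_.map_ne_zero _).mpr hg, fun w => ?_⟩
    have h1 := hordι g (galD τ D - D) 1 (fun v => by rw [one_mul]; exact (hgord v).symm) w
    rw [one_mul] at h1
    rw [h1]
    -- both sides have `l` times the same orders
    refine mul_left_cancel₀ (show (l : ℤ) ≠ 0 by exact_mod_cast hl.ne') ?_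
    have h2 := ord_galF τ (hordι f D l hord) w
    have h3 := ord_div_of_ord ((_root_.map_ne_zero ι).mpr hf)
      ((_root_.map_ne_zero (galF (q * M') τ)).mpr ((_root_.map_ne_zero ι).mpr hf))
      (hordι f D l hord) (ord_galF τ (hordι f D l hord)) w
    rw [← h3, galF_inclF, ← map_div₀]
    exact hordι _ _ l (ord_div_of_ord hf ((_root_.map_ne_zero _).mpr hf) hord (ord_galF τ hord)) w
  obtain ⟨g, hg, hgord⟩ := hmain l hl hlq (ι f) ((_root_.map_ne_zero _).mpr hf) D'
    (hordι f D l hord) hclass' (normUp_inclF_eq_pow hMM hqM hqM' h₀)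
    (by rw [hι, wEquiv_inclF hMM hqM hqM']; exact normUp_inclF_eq_pow hMM hqM hqM' h₁)
  -- compare on functions
  set u := galF (q * M) σ (galF (q * M) σ f) / f ^ (q ^ 2) with hu
  have hσf : galF (q * M) σ (galF (q * M) σ f) ≠ 0 :=
    (_root_.map_ne_zero _).mpr ((_root_.map_ne_zero _).mpr hf)
  have hu0 : u ≠ 0 := div_ne_zero hσf (pow_ne_zero _ hf)
  have hordu : ∀ v, v.ord u = (l : ℤ) * (galD σ (galD σ D) - (q ^ 2) • D) v := fun v => by
    rw [hu, FF.ord_div v hσf (pow_ne_zero _ hf), FF.ord_pow v, ord_galF σ (ord_galF σ hord) v,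
      Finsupp.sub_apply, Finsupp.smul_apply, hord, nsmul_eq_mul]
    ring
  obtain ⟨c, hc, hce⟩ := exists_eq_const_mul (K := QBar) (x := ι u ^ e) (y := g ^ l)
    (pow_ne_zero _ ((_root_.map_ne_zero _).mpr hu0)) (pow_ne_zero _ hg) fun w => by
      rw [FF.ord_pow w, FF.ord_pow w, ← hgord w, hu, map_div₀, map_pow, ← galF_inclF, ← galF_inclF,
        FF.ord_div w ((_root_.map_ne_zero _).mpr ((_root_.map_ne_zero _).mpr
          ((_root_.map_ne_zero ι).mpr hf))) (pow_ne_zero _ ((_root_.map_ne_zero ι).mpr hf)),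
        FF.ord_pow w, ord_galF σ (ord_galF σ (hordι f D l hord)) w, hordι f D l hord w,
        Finsupp.smul_apply, Finsupp.sub_apply, Finsupp.smul_apply]
      simp only [nsmul_eq_mul]
      push_cast
      ring
  let := algebraAlong ι
  have := isScalarTower_along ι
  have hnorm := congrArg (Algebra.norm (FB (q * M))) hce
  rw [map_pow, show ι u = algebraMap (FB (q * M)) (FB (q * M')) u from rfl,
    Algebra.norm_algebraMap, map_mul, map_pow,
    show algebraMap QBar (FB (q * M')) c =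
      algebraMap (FB (q * M)) (FB (q * M')) (algebraMap QBar (FB (q * M)) c) from (ι.commutes c).symm,
    Algebra.norm_algebraMap] at hnorm
  have : Module.Finite (FB (q * M)) (FB (q * M')) := FF.finiteAlong ι
  refine ⟨Algebra.norm (FB (q * M)) g, ((isUnit_iff_ne_zero.mpr hg).map _).ne_zero, fun v => ?_⟩
  refine mul_left_cancel₀ (show (l : ℤ) ≠ 0 by exact_mod_cast hl.ne') ?_
  have h4 := congrArg v.ord hnorm
  have hng : Algebra.norm (FB (q * M)) g ≠ 0 := ((isUnit_iff_ne_zero.mpr hg).map _).ne_zero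
  rw [FF.ord_pow v, FF.ord_pow v, hordu,
    v.ord_mul (pow_ne_zero _ ((_root_.map_ne_zero _).mpr hc)) (pow_ne_zero _ hng),
    FF.ord_pow v, FF.ord_algebraMap, mul_zero, zero_add, FF.ord_pow v] at h4
  rw [← h4, Finsupp.smul_apply, nsmul_eq_mul]
  show _ = _
  rw [hd, finrankAlong]
  push_cast
  ring

end Fermat.Agent.NewformLocal.Toric

end
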