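import Fermat.Agent.NewformLocal.Toric.Homs
import Fermat.Agent.NewformLocal.Toric.Transfer
import Fermat.Agent.NewformLocal.Toric.Raise
import Fermat.Agent.GaloisReps.Results
import Fermat.Agent.NewformLocal.Assembly

/-!
# The square of Frobenius on the toric part of the model

A Hecke operator killing level `R = N / q` sends inertia-fixed torsion of `J₀(N)` to classes whose
norms to level `R` vanish; a constant kills `σ² - q²` on these, and disappears on the lattice.
-/

set_option autoImplicit false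

noncomputable section

namespace Fermat.Agent.NewformLocal.Toric

open ModularCurve ModularCurve.Period AlgebraicCurve CongruenceSubgroup
open Fermat.Agent.Semistable
open Fermat.Agent.JacTorsion
open Arith (QBar GQ)
open LevelRaising (RaiseData)
open GaloisReps (atkinHom coord TorsionIso JTors galTors torsionIso conjProperty latticeMat toFull
  CongruenceProperty modelOfCongruence matIn ext_of_forall_toZModPow)

/-- The degeneracy operators kill, at any spelling of the level. -/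
theorem degeneracy_eq_zero_of_eq {q M L : ℕ} [Fact q.Prime] [NeZero M] [NeZero L]
    (hqM : ¬ q ∣ M) (hL : L = M * q) (hML : M ∣ L)
    (t : CuspForm.heckeAlgebra L 2 (levelPrimes L))
    (ht : ∀ f : CuspForm (Gamma0 M) 2, t.1 (Newforms.levelIncl hML f) = 0)
    {C S : Periods.HeckeSystem (Gamma0 L) (Gamma0 M) (Option (Fin q))}
    {W : Periods.HeckeSystem (Gamma0 L) (Gamma0 L) Unit} (hS : IsDegeneracySystems q M L C S W)
    {B : Type} [CommRing B] {φ : Additive (Gamma0 L) →+ B}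
    (hφ : φ ∈ Gamma0.ellParHoms (Gamma0 L) B) (c : Fin (2 * Gamma0.genus L) → B)
    (hc : coord L B φ = ((latticeMat _ (toFull _ t)).map (Int.castRingHom B)).mulVec c) :
    C.apply (atkinHom L B φ) = 0 ∧ S.apply (atkinHom L B φ) = 0 := by
  subst hL
  have h : RaiseData q M := raiseData hqM
  obtain ⟨e1, e2⟩ := hS.apply_eq (C' := h.corSys) (S' := h.starSys) (W' := h.wSys)
    ⟨fun _ => rfl, fun _ => rfl, rfl, fun φ => h.cor_w φ⟩ (atkinHom (M * q) B φ)
  rw [e1, e2]
  exact degeneracy_eq_zero h t ht hφ c hc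

/-- On the inertia-fixed torsion in the image of an operator killing level `M`, a constant kills
`σ² - q²`. -/
theorem exists_killed_on_torsion {L p q M : ℕ} [NeZero L] [Fact p.Prime] [Fact q.Prime] [NeZero M]
    (hL : q * M = L) (hqM : ¬ q ∣ M) (hqp : q ≠ p) (hML : M ∣ L)
    (t : CuspForm.heckeAlgebra L 2 (levelPrimes L))
    (ht : ∀ f : CuspForm (Gamma0 M) 2, t.1 (Newforms.levelIncl hML f) = 0)
    {A : ValuationSubring QBar} (hA : A.LiesOverPrime q) {σ : GQ} (hσ : A.IsFrobeniusAt σ q) :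
    ∃ e : ℕ, 0 < e ∧ ∀ (n : ℕ) (x : JTors L p n),
      (∀ τ ∈ A.inertiaSubgroupIn ℚ, τ • (x : JZero L) = x) →
      (∃ c : Fin (2 * Gamma0.genus L) → ZMod (p ^ n), (torsionIso L p (conjProperty L)).psi n x =
        ((latticeMat _ (toFull _ t)).map (Int.castRingHom (ZMod (p ^ n)))).mulVec c) →
      e • (σ • σ • (x : JZero L) - (q ^ 2) • (x : JZero L)) = 0 := by
  subst hL
  obtain ⟨e, he, hmain⟩ := exists_smul_principal hA hqM hσ
  refine ⟨e, he, fun n x hfix hc => ?_⟩
  have : NeZero (p ^ n) := ⟨pow_ne_zero n (Fact.out : p.Prime).ne_zero⟩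
  obtain ⟨c, hc⟩ := hc
  obtain ⟨C, S, W, hS⟩ := exists_degeneracySystems (raiseData hqM) (L := q * M) (mul_comm q M)
  obtain ⟨f, rfl⟩ := toTorsion_surjective x
  have hφ := degeneracy_eq_zero_of_eq hqM (mul_comm q M) hML t ht hS
    ((torsionIso (q * M) p (conjProperty (q * M))).e n (toTorsion f)).2 c hc
  have hmono : atkinHom (q * M) (ZMod (p ^ n))
      ((torsionIso (q * M) p (conjProperty (q * M))).e n (toTorsion f)).1 =
        monodromy f.toMul :=
    GaloisReps.atkinHom_atkinHom _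
  rw [hmono] at hφ
  obtain ⟨⟨G₀, hG₀, hN₀⟩, G₁, hG₁, hN₁⟩ := exists_norms_eq_pow hqM hS f.toMul hφ.1 hφ.2
  set D : Divisor.degZero (K := QBar) (F := FB (q * M)) :=
    ⟨divQuot f.toMul, divQuot_mem_degZero _⟩ with hD
  have hord : ∀ v, v.ord ((f.toMul : (FB (q * M))ˣ) : FB (q * M)) =
      ((p ^ n : ℕ) : ℤ) * (D : Divisor QBar (FB (q * M))) v := fun v => by
    have h := congrArg (fun X : Divisor QBar (FB (q * M)) => X v) (smul_divQuot f.toMul)
    simp only [Finsupp.smul_apply, smul_eq_mul, FF.div_apply] at h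
    exact h.symm
  have hclass : ∀ τ ∈ A.inertiaSubgroupIn ℚ,
      galD τ (D : Divisor QBar (FB (q * M))) - D ∈
        Divisor.principal (K := QBar) (F := FB (q * M)) := by
    intro τ hτ
    obtain ⟨D', hD', eD'⟩ := galois_smul_mk τ D
    have h1 : Pic0.mk (D' - D) = 0 := by
      show (Pic0.mk D' : JZero (q * M)) - Pic0.mk D = 0
      rw [← hD', sub_eq_zero]
      exact hfix τ hτ
    have h2 := (QuotientAddGroup.eq_zero_iff (D' - D)).mp h1
    rwa [AddSubgroup.mem_addSubgroupOf, AddSubgroup.coe_sub, eD'] at h2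
  have hq' : ¬ q ∣ p ^ n := fun h => hqp ((Nat.prime_dvd_prime_iff_eq Fact.out Fact.out).1
    ((Fact.out : q.Prime).dvd_of_dvd_pow h))
  have hprin := hmain (p ^ n) (Nat.pos_of_ne_zero (NeZero.ne _)) hq' _ (Units.ne_zero _) D hord hclass
    ⟨G₀, hG₀, hN₀⟩ ⟨G₁, hG₁, hN₁⟩
  obtain ⟨D', hD', eD'⟩ := galois_smul_mk σ D
  obtain ⟨D'', hD'', eD''⟩ := galois_smul_mk σ D'
  have hx : ((toTorsion f : JTors (q * M) p n) : JZero (q * M)) = Pic0.mk D := rfl
  rw [hx, hD', hD'']
  refine (QuotientAddGroup.eq_zero_iff (e • (D'' - (q ^ 2) • D))).mpr ?_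
  rw [AddSubgroup.mem_addSubgroupOf, AddSubgroup.coe_nsmul, AddSubgroup.coe_sub,
    AddSubgroup.coe_nsmul, eD'', eD']
  exact hprin

variable {N p : ℕ} [NeZero N] [Fact p.Prime]

/-- **The toric square property** of the model. -/
theorem toricSquareAt (hES : CongruenceProperty N p) {q : ℕ} (hq : q.Prime) (hqp : q ≠ p)
    (hq2 : ¬ q ^ 2 ∣ N) : ToricSquareAt (modelOfCongruence hES) q := by
  intro R _ hR hRq t ht ℓ hℓ _ A hA σ hσ v hv
  have := Fact.mk hq
  have hqR : ¬ q ∣ R := fun h => hq2 (by rw [← hRq, sq]; exact mul_dvd_mul_right h q)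
  obtain ⟨e, he, hkill⟩ := exists_killed_on_torsion (p := p) (by rw [mul_comm]; exact hRq) hqR hqp hR
    t ht hA hσ
  set E := torsionIso N p (conjProperty N) with hE
  set G := GaloisReps.torsionGalois N p hES
  set X : GaloisReps.FullHecke N :=
    HeckeDuality.heckeOp N 2 ℓ hℓ - ((ℓ + 1 : ℕ) : GaloisReps.FullHecke N)
  set u : Fin (2 * Gamma0.genus N) → ℤ_[p] := (matIn (latticeMat N) ℤ_[p] X).mulVec v with hu
  set w : Fin (2 * Gamma0.genus N) → ℤ_[p] :=
    (matIn (latticeMat N) ℤ_[p] (toFull _ t)).mulVec u with hw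
  show (E.gal σ * E.gal σ * matIn (latticeMat N) ℤ_[p] (toFull _ t * X) -
    (q : ℤ_[p]) ^ 2 • matIn (latticeMat N) ℤ_[p] (toFull _ t * X)).mulVec v = 0
  rw [Matrix.sub_mulVec, Matrix.smul_mulVec, map_mul, ← Matrix.mulVec_mulVec,
    ← Matrix.mulVec_mulVec, ← Matrix.mulVec_mulVec, ← hu, ← hw]
  -- the vector is fixed by inertia
  have hwfix : ∀ τ ∈ A.inertiaSubgroupIn ℚ, (E.gal τ).mulVec w = w := fun τ hτ => by
    rw [hw, hu, Matrix.mulVec_mulVec, Matrix.mulVec_mulVec, (E.gal_commute G τ _).eq,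
      mul_assoc, (E.gal_commute G τ _).eq, ← mul_assoc, ← Matrix.mulVec_mulVec,
      show (E.gal τ).mulVec v = v from hv τ hτ, Matrix.mulVec_mulVec]
  suffices hz : (e : ℤ_[p]) •
      ((E.gal σ).mulVec ((E.gal σ).mulVec w) - (q : ℤ_[p]) ^ 2 • w) = 0 from
    (smul_eq_zero.1 hz).resolve_left (Nat.cast_ne_zero.2 he.ne')
  funext i
  refine PadicInt.ext_of_toZModPow.mp fun n => ?_
  set wn : Fin (2 * Gamma0.genus N) → ZMod (p ^ n) := fun j => PadicInt.toZModPow n (w j) with hwn
  obtain ⟨x, hx⟩ := (E.psi n).surjective wn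
  have hgal : ∀ (g : GQ) (z : Fin (2 * Gamma0.genus N) → ℤ_[p]),
      (fun j => PadicInt.toZModPow n ((E.gal g).mulVec z j)) =
        (E.galLvl n g).mulVec fun j => PadicInt.toZModPow n (z j) := fun g z => funext fun j => by
    rw [RingHom.map_mulVec, E.map_gal]
    rfl
  have hxfix : ∀ τ ∈ A.inertiaSubgroupIn ℚ, τ • (x : JZero N) = x := fun τ hτ => by
    refine congrArg Subtype.val (show galTors n τ x = x from (E.psi n).injective ?_)
    rw [← E.galLvl_mulVec, hx, hwn, ← hgal, hwfix τ hτ]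
  have hc : ∃ c, E.psi n x =
      ((latticeMat _ (toFull _ t)).map (Int.castRingHom (ZMod (p ^ n)))).mulVec c := by
    refine ⟨fun j => PadicInt.toZModPow n (u j), ?_⟩
    rw [hx, hwn, ← GaloisReps.map_intCast_toZModPow]
    funext j
    rw [hw, RingHom.map_mulVec, GaloisReps.matIn_apply]
    rfl
  have h0 := hkill n x hxfix hc
  have h1 : e • (galTors n σ (galTors n σ x) - (q ^ 2) • x) = 0 := Subtype.ext h0
  have h2 := congrArg (E.psi n) h1
  rw [map_nsmul, map_sub, ← E.galLvl_mulVec, ← E.galLvl_mulVec, map_nsmul, map_zero, hx, hwn,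
    ← hgal, ← hgal] at h2
  have h3 := congrFun h2 i
  simp only [Pi.smul_apply, Pi.sub_apply, Pi.zero_apply, nsmul_eq_mul] at h3 ⊢
  rw [map_zero, smul_eq_mul, smul_eq_mul, map_mul, map_sub, map_mul, map_natCast, map_pow,
    map_natCast]
  push_cast at h3 ⊢
  exact h3

end Fermat.Agent.NewformLocal.Toric

end
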